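/-
Program DS (S48, Deligne–Serre), packages G (density calculus) + K (the END GAME of DS §8):
DEFINITIONS ONLY (common language + the interfaces that K consumes from the other packages, as
`Prop`-valued predicates).  Sub-architect: helper17.
-/
import Mathlib
import Fermat.Prelude.Def_GaloisRep_Residual
import Fermat.Prelude.Def_Deformations_MatrixRepresentation
import Fermat.Prelude.Def_FLTPrelim_Ramification
import Fermat.Agent.DS.F.Defs

set_option autoImplicit false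

open Polynomial Filter Topology

namespace Fermat.Agent.DS

local notation "Γℚ" => (AlgebraicClosure ℚ ≃ₐ[ℚ] AlgebraicClosure ℚ)

/-! ## 0. Common language -/

/-- `ℤ̄ ⊂ ℂ`. -/
abbrev DsZbar : Type := integralClosure ℤ ℂ

/-- `x ≡ y (mod Λ)` for complex numbers whose difference is an algebraic integer. -/
def DsCongr (Λ : Ideal DsZbar) (x y : ℂ) : Prop := ∃ z : DsZbar, z ∈ Λ ∧ (z : ℂ) = x - y

/-- A set `T` of primes not dividing `N` has upper logarithmic (Dirichlet) density `≤ η`: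
`∑_{p ∈ T} p^{-s} ≤ η log (1/(s-1)) + C` on `(1, 2]`. -/
def DsUpperDens (N : ℕ) (T : Set (DsfPrime N)) (η : ℝ) : Prop :=
  ∃ C : ℝ, ∀ s : ℝ, 1 < s → s ≤ 2 →
    Summable (fun p : T => (((p : DsfPrime N) : ℕ) : ℝ) ^ (-s)) ∧
      ∑' p : T, (((p : DsfPrime N) : ℕ) : ℝ) ^ (-s) ≤ η * Real.log (1 / (s - 1)) + C

/-- Rankin's bound for a family indexed by the primes not dividing `N`. -/
def DsRankinP (N : ℕ) (b : DsfPrime N → ℂ) : Prop :=
  ∃ C : ℝ, ∀ s : ℝ, 1 < s → s ≤ 2 →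
    Summable (fun p : DsfPrime N => ‖b p‖ ^ 2 * ((p : ℕ) : ℝ) ^ (-s)) ∧
      ∑' p : DsfPrime N, ‖b p‖ ^ 2 * ((p : ℕ) : ℝ) ^ (-s) ≤ Real.log (1 / (s - 1)) + C

/-- Rankin's bound for a sequence (the conclusion of helper1's `ds_rankin`). -/
def DsRankin (N : ℕ) (a : ℕ → ℂ) : Prop := DsRankinP N (fun p => a p)

/-- A subgroup of `GL₂(F)` acts semisimply on `F²`: every stable subspace has a stable
complement.  (Shared with package (I).) -/
def DsSemisimple {F : Type} [CommRing F] (G : Subgroup (GL (Fin 2) F)) : Prop :=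
  ∀ W : Submodule F (Fin 2 → F), (∀ g ∈ G, ∀ w ∈ W, (g : Matrix (Fin 2) (Fin 2) F).mulVec w ∈ W) →
    ∃ W' : Submodule F (Fin 2 → F),
      (∀ g ∈ G, ∀ w ∈ W', (g : Matrix (Fin 2) (Fin 2) F).mulVec w ∈ W') ∧ IsCompl W W'

/-- `ρ` is unramified at `p` (Prelude shape). -/
def DsUnramAt {M : Type} [MulOneClass M] (ρ : Γℚ →* M) (p : ℕ) : Prop :=
  ∀ A : ValuationSubring (AlgebraicClosure ℚ), A.LiesOverPrime p →
    ∀ σ ∈ A.inertiaSubgroupIn ℚ, ρ σ = 1

/-! ## 1. Interfaces consumed from the other packages (as predicates) -/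

/-- **(B)-out**: the coefficient field is a number field, the `a p` (`p ∤ N` prime) are integers
of it, and every conjugate family satisfies Rankin's bound (because it is again the coefficient
family of a weight one cusp form satisfying the Hecke relations: (B) + (F)). -/
structure DsCoeffField (N : ℕ) (a : ℕ → ℂ) (K : IntermediateField ℚ ℂ) : Prop where
  finite : FiniteDimensional ℚ K
  mem : ∀ p : DsfPrime N, a p ∈ K
  integral : ∀ p : DsfPrime N, IsIntegral ℤ (a p)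
  rankin : ∀ σ : K →+* ℂ, DsRankinP N (fun p => σ ⟨a p, mem p⟩)

/-- **(C)+(D)+(E)-out** (the shape of the frozen S29, with nebentypus): for every prime
`ℓ ∤ 2 N` beyond some bound `B₀` and every maximal ideal `Λ ∣ ℓ` of `ℤ̄` there are a field `k` of characteristic `ℓ`, a
homomorphism `φ : ℤ̄ → k` whose kernel AGREES WITH `Λ` ON THE COEFFICIENT FIELD `K` (the lifting
lemma (E) may move `Λ` outside `K`), and a 2-dimensional representation over `k`, unramified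
outside `N ℓ`, with the expected Frobenius polynomials. -/
def DsResidualExists (N : ℕ) (a e : ℕ → ℂ) (K : IntermediateField ℚ ℂ) : Prop :=
  ∃ B₀ : ℕ, ∀ (ℓ : ℕ), ℓ.Prime → B₀ < ℓ → ¬ ℓ ∣ 2 * N →
    ∀ Λ : Ideal DsZbar, Λ.IsMaximal → (ℓ : DsZbar) ∈ Λ →
    ∃ (k : Type) (_ : Field k) (_ : CharP k ℓ) (φ : DsZbar →+* k),
      (∀ z : DsZbar, (z : ℂ) ∈ K → (φ z = 0 ↔ z ∈ Λ)) ∧
      ∃ ρ : ResidualGaloisRep k,
        (∀ p : ℕ, p.Prime → ¬ p ∣ N * ℓ → ρ.IsUnramifiedAt p) ∧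
        ∀ p : ℕ, p.Prime → ¬ p ∣ N * ℓ →
          ∀ A : ValuationSubring (AlgebraicClosure ℚ), A.LiesOverPrime p →
            ∀ σ : Γℚ, A.IsFrobeniusAt σ p →
              ∃ x y : DsZbar, (x : ℂ) = a p ∧ (y : ℂ) = e p ∧
                LinearMap.charpoly (ρ.ρ σ) = X ^ 2 - C (φ x) * X + C (φ y)

/-- **(H5)-out**, Chebotarev's density theorem over `ℚ` in the one-sided (lower bound) form that
the end game consumes: for a subset `S` of a finite Galois group `G` stable under conjugation AND INVERSION (package (H)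
only controls real parts of character sums), `N ≠ 0`, every
set `T` of primes containing all unramified `p ∤ N` with Frobenius class in `S` carries at least
`(|S|/|G| - δ) log (1/(s-1)) - C` of logarithmic mass. -/
def DsChebotarev : Prop :=
  ∀ (G : Type) [Group G] [Finite G] (ρ : Γℚ →* G), GaloisFactorsThroughFiniteLevel ρ →
    Function.Surjective ρ → ∀ (N : ℕ), N ≠ 0 → ∀ (S : Set G),
      (∀ g h : G, g ∈ S → h * g * h⁻¹ ∈ S) → (∀ g ∈ S, g⁻¹ ∈ S) →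
      ∀ δ : ℝ, 0 < δ → ∃ C : ℝ, ∀ s : ℝ, 1 < s → s ≤ 2 → ∀ T : Set (DsfPrime N),
        (∀ p : DsfPrime N, DsUnramAt ρ p →
          (∀ A : ValuationSubring (AlgebraicClosure ℚ), A.LiesOverPrime p →
            ∀ σ : Γℚ, A.IsFrobeniusAt σ p → ρ σ ∈ S) → p ∈ T) →
        Summable (fun p : T => (((p : DsfPrime N) : ℕ) : ℝ) ^ (-s)) →
        ((Nat.card S : ℝ) / Nat.card G - δ) * Real.log (1 / (s - 1)) - C ≤
          ∑' p : T, (((p : DsfPrime N) : ℕ) : ℝ) ^ (-s)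

/-- **(I3)-out** = Deligne–Serre Prop. 7.2. -/
def DsProp72 : Prop :=
  ∀ (η : ℝ) (M : ℕ), 0 ≤ η → η < 1 / 2 → ∃ B : ℕ, ∀ (ℓ : ℕ) [Fact ℓ.Prime]
    (G : Subgroup (GL (Fin 2) (ZMod ℓ))), DsSemisimple G →
      ∀ H : Set (GL (Fin 2) (ZMod ℓ)), H ⊆ (G : Set (GL (Fin 2) (ZMod ℓ))) →
        (1 - η) * (Nat.card G : ℝ) ≤ (H.ncard : ℝ) →
        ((fun g : GL (Fin 2) (ZMod ℓ) => (g : Matrix (Fin 2) (Fin 2) (ZMod ℓ)).charpoly) '' H).ncard
          ≤ M → Nat.card G ≤ B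

/-- **(J)-out** (helper2's `dsj_lift_galois`): a mod `ℓ` representation with image of order `< ℓ`
(`ℓ` odd) lifts to a complex representation with the same kernel and congruent characteristic
polynomials. -/
def DsLift : Prop :=
  ∀ (ℓ : ℕ) [Fact ℓ.Prime], 2 < ℓ → ∀ (Λ : Ideal DsZbar), Λ.IsMaximal → (ℓ : DsZbar) ∈ Λ →
    ∀ ρb : Γℚ →* GL (Fin 2) (ZMod ℓ), Nat.card ρb.range < ℓ →
      ∃ ρ : Γℚ →* GL (Fin 2) ℂ, ρ.ker = ρb.ker ∧ ∀ σ : Γℚ,
        DsCongr Λ ((ρ σ : Matrix (Fin 2) (Fin 2) ℂ).trace)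
          (((ρb σ : Matrix (Fin 2) (Fin 2) (ZMod ℓ)).trace).val : ℂ) ∧
        DsCongr Λ ((ρ σ : Matrix (Fin 2) (Fin 2) ℂ).det)
          (((ρb σ : Matrix (Fin 2) (Fin 2) (ZMod ℓ)).det).val : ℂ)

/-! ## 3. Package K: the two structures -/

/-- The mod `ℓ` representation attached to `(a, e)` at `Λ ∣ ℓ`, over the PRIME field. -/
structure DskModRep (N : ℕ) (a e : ℕ → ℂ) (ℓ : ℕ) (Λ : Ideal DsZbar)
    (ρ : Γℚ →* GL (Fin 2) (ZMod ℓ)) : Prop where
  finiteLevel : GaloisFactorsThroughFiniteLevel ρ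
  semisimple : DsSemisimple ρ.range
  unram : ∀ p : ℕ, p.Prime → ¬ p ∣ N * ℓ → DsUnramAt ρ p
  frob : ∀ p : ℕ, p.Prime → ¬ p ∣ N * ℓ →
    ∀ A : ValuationSubring (AlgebraicClosure ℚ), A.LiesOverPrime p →
      ∀ σ : Γℚ, A.IsFrobeniusAt σ p →
        DsCongr Λ (a p) (((ρ σ : Matrix (Fin 2) (Fin 2) (ZMod ℓ)).trace).val : ℂ) ∧
        DsCongr Λ (e p) (((ρ σ : Matrix (Fin 2) (Fin 2) (ZMod ℓ)).det).val : ℂ)

/-- The complex representation attached to `(a, e)` away from `N ℓ`. -/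
structure DskCplxRep (N : ℕ) (a e : ℕ → ℂ) (ℓ : ℕ) (ρ : Γℚ →* GL (Fin 2) ℂ) : Prop where
  finiteLevel : GaloisFactorsThroughFiniteLevel ρ
  unram : ∀ p : ℕ, p.Prime → ¬ p ∣ N * ℓ → DsUnramAt ρ p
  frob : ∀ p : ℕ, p.Prime → ¬ p ∣ N * ℓ →
    ∀ A : ValuationSubring (AlgebraicClosure ℚ), A.LiesOverPrime p →
      ∀ σ : Γℚ, A.IsFrobeniusAt σ p →
        (ρ σ : Matrix (Fin 2) (Fin 2) ℂ).trace = a p ∧ (ρ σ : Matrix (Fin 2) (Fin 2) ℂ).det = e p

/-- the finite set of polynomials `(X - α)(X - β)`, `α, β` roots of unity with `α^n = β^n = 1`. -/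
def dskRootPolys (n : ℕ) : Set ℂ[X] :=
  {P | ∃ α β : ℂ, α ^ n = 1 ∧ β ^ n = 1 ∧ P = (X - C α) * (X - C β)}

end Fermat.Agent.DS
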