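/-
Program DS (S48), package K, row K2 (Deligne–Serre (8.4)–(8.6)): the images of all the mod `ℓ`
representations attached to `(a, e)` are uniformly bounded.
-/
import Mathlib
import Fermat.Agent.DS.K.Defs
import Fermat.Agent.DS.G.Dens
import Fermat.Agent.DS.G.Main
import Fermat.Agent.S54.ExistsFrobenius

set_option autoImplicit false

open Polynomial

namespace Fermat.Agent.DS

local notation "Γℚ" => (AlgebraicClosure ℚ ≃ₐ[ℚ] AlgebraicClosure ℚ)

/-! ### density of finite sets -/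

/-- a finite set of primes has density `0`. -/
theorem dsg_upperDens_finite {N : ℕ} (T : Set (DsfPrime N)) (hT : T.Finite) :
    DsUpperDens N T 0 := by
  haveI : Fintype T := hT.fintype
  refine ⟨(Fintype.card T : ℝ), fun s h1 _ => ⟨?_, ?_⟩⟩
  · exact (hasSum_fintype _).summable
  · rw [tsum_fintype, zero_mul, zero_add]
    have hle : ∀ p ∈ (Finset.univ : Finset T), (((p : DsfPrime N) : ℕ) : ℝ) ^ (-s) ≤ 1 := by
      intro p _
      have hp1 : (1 : ℝ) ≤ (((p : DsfPrime N) : ℕ) : ℝ) := by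
        exact_mod_cast (p : DsfPrime N).2.1.one_lt.le
      exact Real.rpow_le_one_of_one_le_of_nonpos hp1 (by linarith)
    calc _ ≤ ∑ _p ∈ (Finset.univ : Finset T), (1 : ℝ) := Finset.sum_le_sum hle
      _ = (Fintype.card T : ℝ) := by simp

/-- comparing two logarithmic bounds. -/
theorem dsk_le_of_log_bound (c d C : ℝ)
    (h : ∀ s : ℝ, 1 < s → s ≤ 2 →
      c * Real.log (1 / (s - 1)) ≤ d * Real.log (1 / (s - 1)) + C) : c ≤ d := by
  by_contra hcd
  push Not at hcd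
  have hpos : 0 < c - d := sub_pos.mpr hcd
  set x : ℝ := |C| / (c - d) + 1 with hx
  have hx0 : 0 < x := by positivity
  have hs1 : 1 < 1 + Real.exp (-x) := by linarith [Real.exp_pos (-x)]
  have hs2 : 1 + Real.exp (-x) ≤ 2 := by
    have : Real.exp (-x) ≤ 1 := Real.exp_le_one_iff.mpr (by linarith)
    linarith
  have hlog : Real.log (1 / (1 + Real.exp (-x) - 1)) = x := by
    rw [add_sub_cancel_left, one_div, ← Real.exp_neg, neg_neg, Real.log_exp]
  have := h _ hs1 hs2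
  rw [hlog] at this
  have h2 : (c - d) * x ≤ C := by linarith
  have h3 : (c - d) * x = |C| + (c - d) := by
    rw [hx]
    field_simp
  have h4 : C ≤ |C| := le_abs_self C
  linarith

/-! ### reduction modulo `Λ` -/

/-- two residues modulo `ℓ` congruent to the same complex number modulo `Λ ∣ ℓ` are equal. -/
theorem dsk_red_unique {ℓ : ℕ} [Fact ℓ.Prime] {Λ : Ideal DsZbar} (hΛ : Λ.IsMaximal)
    (hℓ : (ℓ : DsZbar) ∈ Λ) {x : ℂ} {t t' : ZMod ℓ} (h : DsCongr Λ x (t.val : ℂ))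
    (h' : DsCongr Λ x (t'.val : ℂ)) : t = t' := by
  obtain ⟨z, hz, hzx⟩ := h
  obtain ⟨z', hz', hzx'⟩ := h'
  by_contra hne
  set d : ℤ := (t'.val : ℤ) - (t.val : ℤ) with hd
  have hdΛ : ((d : ℤ) : DsZbar) ∈ Λ := by
    have : ((d : ℤ) : DsZbar) = z - z' := by
      apply Subtype.ext
      push_cast
      rw [hzx, hzx', hd]
      push_cast
      ring
    rw [this]
    exact Λ.sub_mem hz hz'
  have hndvd : ¬ (ℓ : ℤ) ∣ d := by
    intro hdvd
    apply hne
    have h1 : ((d : ℤ) : ZMod ℓ) = 0 := (ZMod.intCast_zmod_eq_zero_iff_dvd d ℓ).mpr hdvd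
    rw [hd] at h1
    push_cast at h1
    rw [ZMod.natCast_zmod_val, ZMod.natCast_zmod_val] at h1
    exact (sub_eq_zero.mp h1).symm
  have hcop : IsCoprime (ℓ : ℤ) d :=
    (Nat.prime_iff_prime_int.mp (Fact.out : ℓ.Prime)).coprime_iff_not_dvd.mpr hndvd
  obtain ⟨u, v, huv⟩ := hcop
  apply hΛ.ne_top
  rw [Ideal.eq_top_iff_one]
  have h1 : ((u * (ℓ : ℤ) + v * d : ℤ) : DsZbar) = 1 := by rw [huv]; simp
  rw [← h1]
  push_cast
  exact Λ.add_mem (Λ.mul_mem_left _ hℓ) (Λ.mul_mem_left _ hdΛ)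

open Classical in
/-- the reduction of a complex number modulo `Λ` (when it is congruent to a rational integer). -/
noncomputable def dskRed (ℓ : ℕ) (Λ : Ideal DsZbar) (x : ℂ) : ZMod ℓ :=
  if h : ∃ t : ZMod ℓ, DsCongr Λ x (t.val : ℂ) then h.choose else 0

theorem dskRed_eq {ℓ : ℕ} [Fact ℓ.Prime] {Λ : Ideal DsZbar} (hΛ : Λ.IsMaximal)
    (hℓ : (ℓ : DsZbar) ∈ Λ) {x : ℂ} {t : ZMod ℓ} (h : DsCongr Λ x (t.val : ℂ)) :
    dskRed ℓ Λ x = t := by
  have hex : ∃ t : ZMod ℓ, DsCongr Λ x (t.val : ℂ) := ⟨t, h⟩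
  rw [dskRed, dif_pos hex]
  exact dsk_red_unique hΛ hℓ hex.choose_spec h

/-! ### trace and determinant of the inverse -/

/-- the pair (trace, determinant). -/
def dskTD {F : Type} [CommRing F] (g : GL (Fin 2) F) : F × F :=
  ((g : Matrix (Fin 2) (Fin 2) F).trace, (g : Matrix (Fin 2) (Fin 2) F).det)

/-- the pair (trace, determinant) of the inverse. -/
def dskInvTD {F : Type} [Field F] (q : F × F) : F × F := (q.1 * q.2⁻¹, q.2⁻¹)

theorem dskTD_conj {F : Type} [CommRing F] (g h : GL (Fin 2) F) :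
    dskTD (h * g * h⁻¹) = dskTD g := by
  simp only [dskTD, Units.val_mul, Prod.mk.injEq]
  exact ⟨Matrix.trace_units_conj h (g : Matrix (Fin 2) (Fin 2) F),
    Matrix.det_units_conj h (g : Matrix (Fin 2) (Fin 2) F)⟩

theorem dskTD_inv {F : Type} [Field F] (g : GL (Fin 2) F) : dskTD g⁻¹ = dskInvTD (dskTD g) := by
  have hdet : (g : Matrix (Fin 2) (Fin 2) F).det ≠ 0 := by
    have := Matrix.isUnits_det_units g
    exact this.ne_zero
  have hinv : ((g⁻¹ : GL (Fin 2) F) : Matrix (Fin 2) (Fin 2) F) =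
      (g : Matrix (Fin 2) (Fin 2) F)⁻¹ := Matrix.coe_units_inv g
  simp only [dskTD, dskInvTD, hinv, Prod.mk.injEq]
  constructor
  · rw [Matrix.inv_def, Matrix.trace_smul, Matrix.adjugate_fin_two, Matrix.trace_fin_two,
      Matrix.trace_fin_two]
    simp only [Ring.inverse_eq_inv', Matrix.of_apply, Matrix.cons_val', Matrix.cons_val_zero,
      Matrix.cons_val_one, Matrix.cons_val_fin_one, smul_eq_mul]
    ring
  · rw [Matrix.det_nonsing_inv, Ring.inverse_eq_inv']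

theorem dskInvTD_invol {F : Type} [Field F] (q : F × F) (hq : q.2 ≠ 0) :
    dskInvTD (dskInvTD q) = q := by
  obtain ⟨t, d⟩ := q
  simp only [dskInvTD, inv_inv, Prod.mk.injEq, and_true]
  field_simp

/-! ### the main theorem -/

/-- K2 (DS (8.4)-(8.6)): the images of all the mod `ℓ` representations are uniformly bounded. -/
theorem dsk_bounded_image {N : ℕ} (hN : N ≠ 0) {a e : ℕ → ℂ} {K : IntermediateField ℚ ℂ}
    (hK : DsCoeffField N a K) (m : ℕ) (hm : 0 < m)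
    (he : ∀ p : ℕ, p.Prime → ¬ p ∣ N → e p ^ m = 1)
    (hH : DsChebotarev) (hI : DsProp72) :
    ∃ B : ℕ, ∀ (ℓ : ℕ), ℓ.Prime → ∀ (Λ : Ideal DsZbar), Λ.IsMaximal → (ℓ : DsZbar) ∈ Λ →
      ∀ ρ : Γℚ →* GL (Fin 2) (ZMod ℓ), DskModRep N a e ℓ Λ ρ → Nat.card ρ.range ≤ B := by
  classical
  obtain ⟨Y, hY⟩ := ds_finite_values hK (1 / 4) (by norm_num)
  set μ : Finset ℂ := Polynomial.nthRootsFinset m (1 : ℂ) with hμ
  have hμmem : ∀ ζ : ℂ, ζ ^ m = 1 → ζ ∈ μ := fun ζ hζ =>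
    (Polynomial.mem_nthRootsFinset hm 1).mpr hζ
  have hμcard : μ.card ≤ m := by
    rw [hμ, Polynomial.nthRootsFinset]
    exact le_trans (Multiset.toFinset_card_le _) (Polynomial.card_nthRoots m 1)
  set M : ℕ := 2 * (Y.card * m) with hM
  obtain ⟨B, hB⟩ := hI (1 / 4) M (by norm_num) (by norm_num)
  refine ⟨B, fun ℓ hℓ Λ hΛ hℓΛ ρ hρ => ?_⟩
  haveI : Fact ℓ.Prime := ⟨hℓ⟩
  -- the allowed (trace, determinant) pairs
  set Q₀ : Finset (ZMod ℓ × ZMod ℓ) :=
    (Y ×ˢ μ).image (fun yz => (dskRed ℓ Λ yz.1, dskRed ℓ Λ yz.2)) with hQ₀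
  set Q : Finset (ZMod ℓ × ZMod ℓ) := Q₀ ∪ Q₀.image dskInvTD with hQ
  have hQ₀card : Q₀.card ≤ Y.card * m := by
    refine le_trans Finset.card_image_le ?_
    rw [Finset.card_product]
    exact Nat.mul_le_mul_left _ hμcard
  have hQcard : Q.card ≤ M := by
    refine le_trans (Finset.card_union_le _ _) ?_
    have := Finset.card_image_le (s := Q₀) (f := dskInvTD)
    omega
  -- membership in `Q` is invariant under inversion
  have hQinv : ∀ g : GL (Fin 2) (ZMod ℓ), dskTD g ∈ Q → dskTD g⁻¹ ∈ Q := by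
    intro g hg
    rw [hQ, Finset.mem_union] at hg ⊢
    rcases hg with hg | hg
    · right
      rw [dskTD_inv]
      exact Finset.mem_image_of_mem _ hg
    · left
      obtain ⟨q, hq, hqg⟩ := Finset.mem_image.mp hg
      have hq2 : q.2 ≠ 0 := by
        intro h0
        have hdet : (g : Matrix (Fin 2) (Fin 2) (ZMod ℓ)).det ≠ 0 :=
          (Matrix.isUnits_det_units g).ne_zero
        have : (dskTD g).2 = 0 := by rw [← hqg]; simp [dskInvTD, h0]
        exact hdet this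
      rw [dskTD_inv, ← hqg, dskInvTD_invol q hq2]
      exact hq
  -- the group and the good set
  set G : Subgroup (GL (Fin 2) (ZMod ℓ)) := ρ.range with hG
  set H : Set (GL (Fin 2) (ZMod ℓ)) := {g | g ∈ G ∧ dskTD g ∈ Q} with hH'
  have hHG : H ⊆ (G : Set (GL (Fin 2) (ZMod ℓ))) := fun g hg => hg.1
  -- few characteristic polynomials on `H`
  have hpoly : ((fun g : GL (Fin 2) (ZMod ℓ) =>
      (g : Matrix (Fin 2) (Fin 2) (ZMod ℓ)).charpoly) '' H).ncard ≤ M := by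
    have hsub : ((fun g : GL (Fin 2) (ZMod ℓ) =>
        (g : Matrix (Fin 2) (Fin 2) (ZMod ℓ)).charpoly) '' H) ⊆
        ((Q.image (fun q : ZMod ℓ × ZMod ℓ => X ^ 2 - C q.1 * X + C q.2) :
          Finset (ZMod ℓ)[X]) : Set (ZMod ℓ)[X]) := by
      rintro P ⟨g, hg, rfl⟩
      rw [Finset.mem_coe, Finset.mem_image]
      exact ⟨dskTD g, hg.2, (Matrix.charpoly_fin_two _).symm⟩
    calc _ ≤ ((Q.image (fun q : ZMod ℓ × ZMod ℓ => X ^ 2 - C q.1 * X + C q.2) :
          Finset (ZMod ℓ)[X]) : Set (ZMod ℓ)[X]).ncard :=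
          Set.ncard_le_ncard hsub (Finset.finite_toSet _)
      _ = (Q.image (fun q : ZMod ℓ × ZMod ℓ => X ^ 2 - C q.1 * X + C q.2)).card :=
          Set.ncard_coe_finset _
      _ ≤ Q.card := Finset.card_image_le
      _ ≤ M := hQcard
  -- Chebotarev for the complement
  set ρ' : Γℚ →* G := ρ.rangeRestrict with hρ'
  have hsurj : Function.Surjective ρ' := ρ.rangeRestrict_surjective
  have hfl : GaloisFactorsThroughFiniteLevel ρ' := by
    obtain ⟨L, hL, h1⟩ := hρ.finiteLevel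
    exact ⟨L, hL, fun σ hσ => Subtype.ext (h1 σ hσ)⟩
  set S : Set G := {g | dskTD (g : GL (Fin 2) (ZMod ℓ)) ∉ Q} with hS
  have hSconj : ∀ g h : G, g ∈ S → h * g * h⁻¹ ∈ S := by
    intro g h hg
    simp only [hS, Set.mem_setOf_eq] at hg ⊢
    have : ((h * g * h⁻¹ : G) : GL (Fin 2) (ZMod ℓ)) =
        (h : GL (Fin 2) (ZMod ℓ)) * g * (h : GL (Fin 2) (ZMod ℓ))⁻¹ := by simp
    rw [this, dskTD_conj]
    exact hg
  have hSinv : ∀ g ∈ S, g⁻¹ ∈ S := by
    intro g hg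
    simp only [hS, Set.mem_setOf_eq] at hg ⊢
    intro hcon
    apply hg
    have := hQinv _ hcon
    simpa using this
  -- the exceptional set of primes
  set T : Set (DsfPrime N) := {p | a p ∉ Y} ∪ {p | (p : ℕ) = ℓ} with hT
  have hTdens : DsUpperDens N T (1 / 4 + 0) := by
    refine dsg_upperDens_union hY (dsg_upperDens_finite _ ?_)
    refine Set.Subsingleton.finite ?_
    intro p hp q hq
    exact Subtype.ext (hp.trans hq.symm)
  obtain ⟨C₂, hC₂⟩ := hTdens
  have hTcheb : ∀ p : DsfPrime N, DsUnramAt ρ' p →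
      (∀ A : ValuationSubring (AlgebraicClosure ℚ), A.LiesOverPrime p →
        ∀ σ : Γℚ, A.IsFrobeniusAt σ p → ρ' σ ∈ S) → p ∈ T := by
    intro p _ hfrob
    by_cases hpℓ : (p : ℕ) = ℓ
    · exact Or.inr hpℓ
    · left
      show a p ∉ Y
      intro hapY
      have hpNℓ : ¬ (p : ℕ) ∣ N * ℓ := by
        intro hdvd
        rcases (Nat.Prime.dvd_mul p.2.1).mp hdvd with h | h
        · exact p.2.2 h
        · exact hpℓ ((Nat.prime_dvd_prime_iff_eq p.2.1 hℓ).mp h)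
      obtain ⟨A, hA, σ, hσ⟩ := Fermat.Agent.S54.exists_liesOverPrime_and_isFrobeniusAt p p.2.1
      have hS' := hfrob A hA σ hσ
      simp only [hS, Set.mem_setOf_eq] at hS'
      apply hS'
      obtain ⟨htr, hdet⟩ := hρ.frob p p.2.1 hpNℓ A hA σ hσ
      have h1 : dskRed ℓ Λ (a p) = ((ρ σ : Matrix (Fin 2) (Fin 2) (ZMod ℓ))).trace :=
        dskRed_eq hΛ hℓΛ htr
      have h2 : dskRed ℓ Λ (e p) = ((ρ σ : Matrix (Fin 2) (Fin 2) (ZMod ℓ))).det :=
        dskRed_eq hΛ hℓΛ hdet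
      rw [hQ, Finset.mem_union]
      left
      rw [hQ₀, Finset.mem_image]
      refine ⟨(a p, e p), Finset.mem_product.mpr ⟨hapY, hμmem _ (he p p.2.1 p.2.2)⟩, ?_⟩
      show (dskRed ℓ Λ (a p), dskRed ℓ Λ (e p)) = dskTD (ρ σ)
      rw [h1, h2]
      rfl
  -- `|S| ≤ |G| / 4`
  have hcardG : (0 : ℝ) < Nat.card G := by exact_mod_cast Nat.card_pos
  have hSle : (Nat.card S : ℝ) / Nat.card G ≤ 1 / 4 := by
    apply le_of_forall_pos_le_add
    intro δ hδ
    obtain ⟨C₁, hC₁⟩ := hH G ρ' hfl hsurj N hN S hSconj hSinv δ hδ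
    have key := dsk_le_of_log_bound ((Nat.card S : ℝ) / Nat.card G - δ) (1 / 4 + 0) (C₂ + C₁)
      (fun s h1 h2 => by
        obtain ⟨hsum, hle⟩ := hC₂ s h1 h2
        have := hC₁ s h1 h2 T hTcheb hsum
        linarith)
    linarith
  -- `|H| ≥ (3/4) |G|`
  have hHcard : (1 - 1 / 4) * (Nat.card G : ℝ) ≤ (H.ncard : ℝ) := by
    have hHimg : H = (fun g : G => (g : GL (Fin 2) (ZMod ℓ))) '' Sᶜ := by
      ext g
      simp only [hH', hS, Set.mem_setOf_eq, Set.mem_image, Set.mem_compl_iff, not_not]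
      constructor
      · rintro ⟨hgG, hgQ⟩
        exact ⟨⟨g, hgG⟩, hgQ, rfl⟩
      · rintro ⟨g', hg', rfl⟩
        exact ⟨g'.2, hg'⟩
    have h1 : H.ncard = Sᶜ.ncard := by
      rw [hHimg]
      exact Set.ncard_image_of_injective _ Subtype.coe_injective
    have h2 : Sᶜ.ncard = Nat.card G - S.ncard := Set.ncard_compl S
    have h3 : S.ncard ≤ Nat.card G := by
      rw [← Set.ncard_univ]
      exact Set.ncard_le_ncard (Set.subset_univ _)
    have h4 : (Nat.card S : ℝ) = (S.ncard : ℝ) := by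
      rw [Nat.card_coe_set_eq]
    rw [h1, h2, Nat.cast_sub h3]
    rw [div_le_iff₀ hcardG, h4] at hSle
    linarith
  exact hB ℓ G hρ.semisimple H hHG hHcard hpoly

end Fermat.Agent.DS
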