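/-
Program DS (S48), package K, row K1a (part 1): Schur's theorem — a nonconstant integer polynomial
has a root modulo infinitely many primes.
-/
import Mathlib

set_option autoImplicit false

open Polynomial

namespace Fermat.Agent.DS

/-- **Schur**: a nonconstant `g ∈ ℤ[X]` has a root modulo some prime beyond any bound. -/
theorem dsk_schur (g : ℤ[X]) (hg : 0 < g.natDegree) (B : ℕ) :
    ∃ ℓ : ℕ, B < ℓ ∧ ℓ.Prime ∧ ∃ r : ℤ, (ℓ : ℤ) ∣ g.eval r := by
  by_cases hc : g.eval 0 = 0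
  · obtain ⟨ℓ, hBℓ, hℓ⟩ := Nat.exists_infinite_primes (B + 1)
    exact ⟨ℓ, by omega, hℓ, 0, by rw [hc]; exact dvd_zero _⟩
  set c : ℤ := g.eval 0 with hcdef
  set P : ℤ := (B.factorial : ℤ) with hP
  have hP0 : P ≠ 0 := by
    rw [hP]
    exact_mod_cast (Nat.factorial_pos B).ne'
  have hcP : c * P ≠ 0 := mul_ne_zero hc hP0
  set f : ℤ[X] := g.comp (C (c * P) * X) with hf
  have hfdeg : 0 < f.natDegree := by
    rw [hf, natDegree_comp, natDegree_C_mul_X _ hcP, mul_one]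
    exact hg
  have hf0 : f ≠ 0 := fun h => by rw [h, natDegree_zero] at hfdeg; exact lt_irrefl _ hfdeg
  have hf1 : f - C c ≠ 0 := fun h => by
    have := natDegree_sub_C (p := f) (a := c)
    rw [h, natDegree_zero] at this
    omega
  have hf2 : f + C c ≠ 0 := fun h => by
    have := natDegree_add_C (p := f) (a := c)
    rw [h, natDegree_zero] at this
    omega
  set F : ℤ[X] := f * (f - C c) * (f + C c) with hF
  have hF0 : F ≠ 0 := mul_ne_zero (mul_ne_zero hf0 hf1) hf2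
  obtain ⟨t, ht⟩ := Infinite.exists_notMem_finset F.roots.toFinset
  have hFt : F.eval t ≠ 0 := by
    intro h0
    apply ht
    rw [Multiset.mem_toFinset, mem_roots hF0]
    exact h0
  set v : ℤ := g.eval (c * P * t) with hv
  have hfv : f.eval t = v := by
    rw [hf, eval_comp]
    simp [hv]
  rw [hF, eval_mul, eval_mul, eval_sub, eval_add, eval_C, hfv] at hFt
  have hv0 : v ≠ 0 := fun h => hFt (by rw [h]; simp)
  have hv1 : v ≠ c := fun h => hFt (by rw [h]; simp)
  have hv2 : v ≠ -c := fun h => hFt (by rw [h]; simp)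
  obtain ⟨u, hu⟩ : (c * P * t - 0) ∣ g.eval (c * P * t) - g.eval 0 := sub_dvd_eval_sub _ _ g
  rw [sub_zero, ← hv, ← hcdef] at hu
  set w : ℤ := 1 + P * t * u with hw
  have hvw : v = c * w := by rw [hw]; linear_combination hu
  have hw0 : w ≠ 0 := fun h => hv0 (by rw [hvw, h, mul_zero])
  have hw1 : w ≠ 1 := fun h => hv1 (by rw [hvw, h, mul_one])
  have hw2 : w ≠ -1 := fun h => hv2 (by rw [hvw, h]; ring)
  have hwabs : w.natAbs ≠ 1 := by
    intro h
    rcases Int.natAbs_eq w with h' | h'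
    · exact hw1 (by rw [h', h]; rfl)
    · exact hw2 (by rw [h', h]; rfl)
  obtain ⟨ℓ, hℓ, hℓw⟩ := Nat.exists_prime_and_dvd hwabs
  have hℓw' : (ℓ : ℤ) ∣ w := Int.natCast_dvd.mpr hℓw
  refine ⟨ℓ, ?_, hℓ, c * P * t, ?_⟩
  · by_contra hle
    push Not at hle
    have h1 : ℓ ∣ B.factorial := Nat.dvd_factorial hℓ.pos hle
    have h2 : (ℓ : ℤ) ∣ P := by rw [hP]; exact_mod_cast h1
    have h3 : (ℓ : ℤ) ∣ 1 := by
      have : (1 : ℤ) = w - P * t * u := by rw [hw]; ring
      rw [this]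
      exact dvd_sub hℓw' (Dvd.dvd.mul_right (Dvd.dvd.mul_right h2 t) u)
    have h4 : ℓ ∣ 1 := by exact_mod_cast h3
    exact hℓ.one_lt.ne' (Nat.dvd_one.mp h4)
  · rw [← hv, hvw]
    exact Dvd.dvd.mul_left hℓw' c

end Fermat.Agent.DS
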