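/-
Program DS (S48), package K, row K1a: a number field `K ⊂ ℂ` has, beyond any bound, a prime `ℓ` and
a maximal ideal `Λ ∣ ℓ` of `ℤ̄` modulo which every integer of `K` is congruent to a rational
integer.  (Schur's theorem + discriminant denominators + lying over; no Chebotarev.)
-/
import Mathlib
import Fermat.Agent.DS.K.Defs
import Fermat.Agent.DS.K.Schur

set_option autoImplicit false

open Polynomial IntermediateField

namespace Fermat.Agent.DS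

/-- a number field has an INTEGRAL primitive element `α`, and a nonzero integer `d` with
`d • 𝓞_K ⊆ ℤ[α]`. -/
theorem dsk_exists_integral_gen (K : Type) [Field K] [NumberField K] :
    ∃ (α : K) (d : ℤ), IsIntegral ℤ α ∧ d ≠ 0 ∧
      ∀ z : K, IsIntegral ℤ z → (d : K) * z ∈ Algebra.adjoin ℤ ({α} : Set K) := by
  obtain ⟨α₀, hα₀⟩ := Field.exists_primitive_element ℚ K
  have halg₀ : IsAlgebraic ℤ α₀ :=
    (IsFractionRing.isAlgebraic_iff ℤ ℚ K).mpr (Algebra.IsAlgebraic.isAlgebraic α₀)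
  obtain ⟨m, hm0, hmint⟩ := halg₀.exists_integral_multiple
  set α : K := m • α₀ with hα
  have hmK : (m : K) ≠ 0 := by exact_mod_cast hm0
  have htop : ℚ⟮α⟯ = ⊤ := by
    rw [eq_top_iff, ← hα₀, IntermediateField.adjoin_simple_le_iff]
    have h1 : α ∈ ℚ⟮α⟯ := IntermediateField.mem_adjoin_simple_self ℚ α
    have h2 : α₀ = (m : K)⁻¹ * α := by
      rw [hα, zsmul_eq_mul, ← mul_assoc, inv_mul_cancel₀ hmK, one_mul]
    rw [h2]
    exact mul_mem (inv_mem (intCast_mem _ m)) h1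
  have hαQ : IsIntegral ℚ α := Algebra.IsIntegral.isIntegral α
  set Bp : PowerBasis ℚ K := PowerBasis.ofAdjoinEqTop hαQ
    (Algebra.adjoin_eq_top_of_primitive_element hαQ.isAlgebraic htop) with hBp
  have hgen : Bp.gen = α := PowerBasis.ofAdjoinEqTop_gen _ _
  have hgenint : IsIntegral ℤ Bp.gen := hgen ▸ hmint
  have hdint : IsIntegral ℤ (Algebra.discr ℚ Bp.basis) := by
    apply Algebra.discr_isIntegral
    intro i
    rw [Bp.basis_eq_pow]
    exact hgenint.pow _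
  obtain ⟨d, hd⟩ := IsIntegrallyClosed.isIntegral_iff.mp hdint
  have hd0 : d ≠ 0 := by
    intro h0
    rw [h0, map_zero] at hd
    exact Algebra.discr_not_zero_of_basis ℚ Bp.basis hd.symm
  refine ⟨α, d, hmint, hd0, fun z hz => ?_⟩
  have := Algebra.discr_mul_isIntegral_mem_adjoin (R := ℤ) (K := ℚ) hgenint hz
  rw [← hd, hgen] at this
  convert this using 1
  rw [Algebra.smul_def]
  simp

/-- K1a (Schur + lying over): a number field `K ⊂ ℂ` has, beyond any bound, a prime `ℓ` and a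
maximal ideal `Λ ∣ ℓ` of `ℤ̄` at which every integer of `K` is congruent to a rational integer
(`Λ ∩ K` of degree one). -/
theorem dsk_exists_degree_one (K : IntermediateField ℚ ℂ) [FiniteDimensional ℚ K] (B : ℕ) :
    ∃ ℓ : ℕ, B < ℓ ∧ ℓ.Prime ∧ ∃ Λ : Ideal DsZbar, Λ.IsMaximal ∧ (ℓ : DsZbar) ∈ Λ ∧
      ∀ x : ℂ, x ∈ K → IsIntegral ℤ x → ∃ n : ℕ, DsCongr Λ x n := by
  have hNF : NumberField K := ⟨⟩
  obtain ⟨α, d, hαint, hd0, hden⟩ := dsk_exists_integral_gen K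
  set θ : ℂ := (α : ℂ) with hθdef
  have hθ : IsIntegral ℤ θ :=
    (isIntegral_algebraMap_iff (A := K) (B := ℂ) (algebraMap K ℂ).injective).mpr hαint
  -- every integer of `K`, multiplied by `d`, is a polynomial in `θ`
  have hpoly : ∀ x : ℂ, x ∈ K → IsIntegral ℤ x → ∃ q : ℤ[X], aeval θ q = (d : ℂ) * x := by
    intro x hx hxint
    have hxK : IsIntegral ℤ (⟨x, hx⟩ : K) :=
      (isIntegral_algebraMap_iff (A := K) (B := ℂ) (algebraMap K ℂ).injective).mp hxint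
    have hmem := hden ⟨x, hx⟩ hxK
    rw [Algebra.adjoin_singleton_eq_range_aeval] at hmem
    obtain ⟨q, hq⟩ := hmem
    refine ⟨q, ?_⟩
    have h1 : aeval (algebraMap K ℂ α) q = algebraMap K ℂ (aeval α q) :=
      aeval_algebraMap_apply ℂ α q
    have h2 : (aeval α) q = (d : K) * ⟨x, hx⟩ := hq
    rw [h2] at h1
    rw [hθdef]
    have h3 : algebraMap K ℂ ((d : K) * ⟨x, hx⟩) = (d : ℂ) * x := by
      rw [map_mul, map_intCast]
      rfl
    rw [← h3]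
    exact h1
  -- Schur
  set g : ℤ[X] := minpoly ℤ θ with hg
  have hgdeg : 0 < g.natDegree := minpoly.natDegree_pos hθ
  obtain ⟨ℓ, hBℓ, hℓ, r, hr⟩ := dsk_schur g hgdeg (max B d.natAbs)
  have hBℓ1 : B < ℓ := lt_of_le_of_lt (le_max_left _ _) hBℓ
  have hdℓ : d.natAbs < ℓ := lt_of_le_of_lt (le_max_right _ _) hBℓ
  haveI : Fact ℓ.Prime := ⟨hℓ⟩
  refine ⟨ℓ, hBℓ1, hℓ, ?_⟩
  -- the maximal ideal `𝔫 = (ℓ, X - r)` of `ℤ[X]`
  set ψ : ℤ[X] →+* ZMod ℓ := eval₂RingHom (Int.castRingHom (ZMod ℓ)) (r : ZMod ℓ) with hψ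
  have hψval : ∀ q : ℤ[X], ψ q = ((q.eval r : ℤ) : ZMod ℓ) := by
    intro q
    rw [hψ, coe_eval₂RingHom, eval₂_at_intCast]
    rfl
  have hψsurj : Function.Surjective ψ := by
    intro y
    obtain ⟨n, rfl⟩ := ZMod.intCast_surjective y
    exact ⟨C n, by rw [hψval, eval_C]⟩
  set 𝔫 : Ideal ℤ[X] := RingHom.ker ψ with h𝔫
  haveI h𝔫max : 𝔫.IsMaximal := RingHom.ker_isMaximal_of_surjective ψ hψsurj
  have hψg : ψ g = 0 := by
    rw [hψval]
    exact (ZMod.intCast_zmod_eq_zero_iff_dvd _ _).mpr hr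
  -- `ℤ̄` as an integral `ℤ[X]`-algebra through `X ↦ θ`
  set θz : DsZbar := ⟨θ, hθ⟩ with hθz
  set ι : ℤ[X] →+* DsZbar := (aeval θz : ℤ[X] →ₐ[ℤ] DsZbar).toRingHom with hι
  have hιcoe : ∀ q : ℤ[X], ((ι q : DsZbar) : ℂ) = aeval θ q := by
    intro q
    have h1 : aeval (algebraMap DsZbar ℂ θz) q = algebraMap DsZbar ℂ (aeval θz q) :=
      aeval_algebraMap_apply ℂ θz q
    exact h1.symm
  letI : Algebra ℤ[X] DsZbar := ι.toAlgebra
  have hIsInt : Algebra.IsIntegral ℤ[X] DsZbar :=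
    ⟨fun x => (integralClosure.isIntegral x).tower_top⟩
  have hker : RingHom.ker (algebraMap ℤ[X] DsZbar) ≤ 𝔫 := by
    intro q hq
    have hq0 : ι q = 0 := hq
    have hq1 : aeval θ q = 0 := by rw [← hιcoe, hq0]; rfl
    obtain ⟨q', rfl⟩ := minpoly.isIntegrallyClosed_dvd hθ hq1
    rw [h𝔫, RingHom.mem_ker, map_mul, ← hg, hψg, zero_mul]
  obtain ⟨Λ, hΛmax, hΛ⟩ := Ideal.exists_ideal_over_maximal_of_isIntegral 𝔫 hker
  have hmem : ∀ q : ℤ[X], ψ q = 0 → ι q ∈ Λ := by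
    intro q hq
    have : q ∈ Λ.comap (algebraMap ℤ[X] DsZbar) := by rw [hΛ]; exact hq
    exact this
  have hℓΛ : (ℓ : DsZbar) ∈ Λ := by
    have h1 : ψ (ℓ : ℤ[X]) = 0 := by rw [map_natCast]; exact ZMod.natCast_self ℓ
    have h2 := hmem _ h1
    rwa [map_natCast] at h2
  refine ⟨Λ, hΛmax, hℓΛ, fun x hx hxint => ?_⟩
  obtain ⟨q, hq⟩ := hpoly x hx hxint
  -- `d x ≡ m`
  set m : ℕ := (ψ q).val with hm
  have h1 : ψ (q - C (m : ℤ)) = 0 := by
    rw [map_sub, hψval (C (m : ℤ)), eval_C, hm]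
    simp
  have h2 : ι (q - C (m : ℤ)) ∈ Λ := hmem _ h1
  -- invert `d` modulo `ℓ`
  have hdZ : (d : ZMod ℓ) ≠ 0 := by
    intro h0
    have hdvd := (ZMod.intCast_zmod_eq_zero_iff_dvd d ℓ).mp h0
    have h3 : ℓ ∣ d.natAbs := Int.natCast_dvd.mp hdvd
    have h4 : 0 < d.natAbs := Int.natAbs_pos.mpr hd0
    exact absurd (Nat.le_of_dvd h4 h3) (not_le.mpr hdℓ)
  set d' : ℕ := ((d : ZMod ℓ)⁻¹).val with hd'
  obtain ⟨e, he⟩ : (ℓ : ℤ) ∣ d * d' - 1 := by
    rw [← ZMod.intCast_zmod_eq_zero_iff_dvd]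
    push_cast
    rw [hd', ZMod.natCast_zmod_val, mul_inv_cancel₀ hdZ, sub_self]
  refine ⟨d' * m, ?_⟩
  set xz : DsZbar := ⟨x, hxint⟩ with hxz
  refine ⟨-((ℓ : DsZbar) * (e : DsZbar) * xz) + (d' : DsZbar) * ι (q - C (m : ℤ)), ?_, ?_⟩
  · exact Λ.add_mem (Λ.neg_mem (Λ.mul_mem_right _ (Λ.mul_mem_right _ hℓΛ))) (Λ.mul_mem_left _ h2)
  · have h5 : ((ι (q - C (m : ℤ)) : DsZbar) : ℂ) = (d : ℂ) * x - m := by
      rw [hιcoe, map_sub, hq, aeval_C]
      simp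
    have he' : ((d : ℂ) * (d' : ℂ) - 1) = (ℓ : ℂ) * (e : ℂ) := by exact_mod_cast he
    push_cast
    rw [h5, hxz]
    simp only []
    linear_combination x * he'

end Fermat.Agent.DS
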