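/-
Program DS (S48), package K, row K1b: `dsk_descend`, VERBATIM vs `DS/K/Spec.lean`
(origin/helper17 329e3b3, with the kernel clause).  The proof is `dskd_descend`
(`DS/K/Descend/Main.lean`, Mathlib only) applied to the quotient `G ⧸ ker ρ`;
`DsSemisimple` and the private copy `dskdSemisimple` unfold to the same statement.
-/
import Mathlib
import Fermat.Agent.DS.K.Defs
import Fermat.Agent.DS.K.Descend.Main

set_option autoImplicit false
set_option linter.style.haveILetI false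

open Polynomial Filter Topology

namespace Fermat.Agent.DS

/-- K1b (descent to the prime field): a finite group `G` acting on a 2-dimensional space over a
field `k` of characteristic `ℓ` such that every characteristic polynomial has coefficients in the
prime field admits a SEMISIMPLE representation over `ZMod ℓ` with the same characteristic
polynomials. -/
theorem dsk_descend (ℓ : ℕ) [Fact ℓ.Prime] (hℓ2 : ℓ ≠ 2) {G : Type} [Group G] [Finite G]
    {k : Type} [Field k] [CharP k ℓ] [Algebra (ZMod ℓ) k] {V : Type} [AddCommGroup V] [Module k V]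
    [Module.Finite k V] (hV : Module.finrank k V = 2) (ρ : G →* Module.End k V)
    (h : ∀ g : G, ∃ t d : ZMod ℓ, LinearMap.charpoly (ρ g) =
      X ^ 2 - C (algebraMap (ZMod ℓ) k t) * X + C (algebraMap (ZMod ℓ) k d)) :
    ∃ ρ₀ : G →* GL (Fin 2) (ZMod ℓ), DsSemisimple ρ₀.range ∧ (∀ g : G, ρ g = 1 → ρ₀ g = 1) ∧
      ∀ g : G, LinearMap.charpoly (ρ g) =
        ((ρ₀ g : Matrix (Fin 2) (Fin 2) (ZMod ℓ)).charpoly).map (algebraMap (ZMod ℓ) k) := by
  classical
  -- pass to the quotient by the kernel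
  haveI : ρ.ker.Normal := MonoidHom.normal_ker ρ
  let π : G →* G ⧸ ρ.ker := QuotientGroup.mk' ρ.ker
  let ρ' : G ⧸ ρ.ker →* Module.End k V := QuotientGroup.lift ρ.ker ρ le_rfl
  have hρ' : ∀ g : G, ρ' (π g) = ρ g := fun g => rfl
  have h' : ∀ g : G ⧸ ρ.ker, ∃ t d : ZMod ℓ, LinearMap.charpoly (ρ' g) =
      X ^ 2 - C (algebraMap (ZMod ℓ) k t) * X + C (algebraMap (ZMod ℓ) k d) := by
    intro g
    obtain ⟨g, rfl⟩ := QuotientGroup.mk_surjective g
    exact h g
  obtain ⟨ρ₀, hss, hcp⟩ := dskd_descend ℓ hℓ2 hV ρ' h'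
  refine ⟨ρ₀.comp π, ?_, ?_, fun g => hcp (π g)⟩
  · intro W hW
    have hW' : ∀ g ∈ ρ₀.range, ∀ w ∈ W,
        (g : Matrix (Fin 2) (Fin 2) (ZMod ℓ)).mulVec w ∈ W := by
      rintro _ ⟨g, rfl⟩ w hw
      obtain ⟨g, rfl⟩ := QuotientGroup.mk_surjective g
      exact hW _ ⟨g, rfl⟩ w hw
    obtain ⟨W', hW'st, hc⟩ := hss W hW'
    refine ⟨W', ?_, hc⟩
    rintro _ ⟨g, rfl⟩ w hw
    exact hW'st _ ⟨π g, rfl⟩ w hw
  · intro g hg
    have : π g = 1 := (QuotientGroup.eq_one_iff g).mpr (MonoidHom.mem_ker.mpr hg)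
    rw [MonoidHom.comp_apply, this, map_one]

end Fermat.Agent.DS
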