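/-
Program DS (S48, Deligne–Serre), package K, row K1 (`dsk_modRep_exists`): assembly of
K1a (`dsk_exists_degree_one`, primes of degree one), K1b (`dsk_descend`, descent to the prime
field) and the weak Chebotarev theorem `fd_exists_isFrobeniusAt_hom` (S56/Frob/Hom, on main).
-/
import Mathlib
import Fermat.Agent.DS.K.Defs
import Fermat.Agent.DS.K.DegreeOne
import Fermat.Agent.DS.K.Descend
import Fermat.Agent.S56.Frob.Hom

set_option autoImplicit false
set_option linter.unusedSectionVars false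
set_option linter.unusedVariables false
set_option linter.style.haveILetI false

open Polynomial Filter Topology

namespace Fermat.Agent.DS

local notation "Γℚ" => (AlgebraicClosure ℚ ≃ₐ[ℚ] AlgebraicClosure ℚ)

local instance dskm_isAlgebraic : Algebra.IsAlgebraic ℚ (AlgebraicClosure ℚ) :=
  AlgebraicClosure.isAlgebraic ℚ
local instance dskm_isAlgClosure : IsAlgClosure ℚ (AlgebraicClosure ℚ) :=
  ⟨inferInstance, inferInstance⟩
local instance dskm_normal : Normal ℚ (AlgebraicClosure ℚ) :=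
  IsAlgClosure.normal ℚ (AlgebraicClosure ℚ)
local instance dskm_isGalois : IsGalois ℚ (AlgebraicClosure ℚ) := inferInstance

/-! ### the prime field is stable under powers -/

theorem dskm_PF_pow {R : Type*} [Ring R] {x : R} (hx : dskdPF R x) (n : ℕ) : dskdPF R (x ^ n) := by
  induction n with
  | zero => rw [pow_zero]; exact dskdPF_one
  | succ n ih => rw [pow_succ]; exact dskdPF_mul ih hx

/-- Cayley–Hamilton for `2 × 2` matrices -/
theorem dskm_cayley {R : Type*} [CommRing R] (A : Matrix (Fin 2) (Fin 2) R) :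
    A * A = A.trace • A - A.det • (1 : Matrix (Fin 2) (Fin 2) R) := by
  ext i j
  fin_cases i <;> fin_cases j <;>
    simp [Matrix.mul_apply, Fin.sum_univ_two, Matrix.trace_fin_two, Matrix.det_fin_two] <;> ring

theorem dskm_trace_pow_rec {R : Type*} [CommRing R] (A : Matrix (Fin 2) (Fin 2) R) (n : ℕ) :
    (A ^ (n + 2)).trace = A.trace * (A ^ (n + 1)).trace - A.det * (A ^ n).trace := by
  have h : A ^ (n + 2) = A.trace • A ^ (n + 1) - A.det • A ^ n := by
    rw [pow_add, pow_two, dskm_cayley, Matrix.mul_sub, Matrix.mul_smul, Matrix.mul_smul,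
      Matrix.mul_one, ← pow_succ]
  rw [h, Matrix.trace_sub, Matrix.trace_smul, Matrix.trace_smul, smul_eq_mul, smul_eq_mul]

theorem dskm_trace_pow_PF {R : Type*} [CommRing R] (A : Matrix (Fin 2) (Fin 2) R)
    (ht : dskdPF R A.trace) (hd : dskdPF R A.det) (n : ℕ) :
    dskdPF R (A ^ n).trace ∧ dskdPF R (A ^ (n + 1)).trace := by
  induction n with
  | zero =>
    refine ⟨?_, by rw [zero_add, pow_one]; exact ht⟩
    rw [pow_zero, Matrix.trace_one, Fintype.card_fin]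
    exact ⟨2, by push_cast; rfl⟩
  | succ n ih =>
    refine ⟨ih.2, ?_⟩
    rw [dskm_trace_pow_rec]
    exact dskdPF_sub (dskdPF_mul ht ih.2) (dskdPF_mul hd ih.1)

/-- powers of an endomorphism of a plane whose characteristic polynomial has prime field
coefficients have the same property -/
theorem dskm_charpoly_pow {k : Type} [Field k] {V : Type} [AddCommGroup V] [Module k V]
    [Module.Finite k V] (hV : Module.finrank k V = 2) (f : Module.End k V) {t d : k}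
    (ht : dskdPF k t) (hd : dskdPF k d)
    (h : LinearMap.charpoly f = X ^ 2 - C t * X + C d) (m : ℕ) :
    ∃ t' d' : k, dskdPF k t' ∧ dskdPF k d' ∧
      LinearMap.charpoly (f ^ m) = X ^ 2 - C t' * X + C d' := by
  classical
  let b : Module.Basis (Fin 2) k V := Module.finBasisOfFinrankEq k V hV
  set A : Matrix (Fin 2) (Fin 2) k := LinearMap.toMatrix b b f with hA
  have h1 : A.charpoly = X ^ 2 - C t * X + C d := by
    rw [hA, LinearMap.charpoly_toMatrix, h]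
  rw [Matrix.charpoly_fin_two] at h1
  obtain ⟨h2, h3⟩ := dskd_quad_inj h1
  refine ⟨(A ^ m).trace, (A ^ m).det, (dskm_trace_pow_PF A (h2 ▸ ht) (h3 ▸ hd) m).1, ?_, ?_⟩
  · rw [Matrix.det_pow, h3]
    exact dskm_PF_pow hd m
  · rw [← LinearMap.charpoly_toMatrix (f ^ m) b, ← LinearMap.toMatrix_pow, ← hA,
      Matrix.charpoly_fin_two]

/-! ### Galois side -/

theorem dskm_isOpen_ker {M : Type} [Monoid M] (φ : Γℚ →* M)
    (h : GaloisFactorsThroughFiniteLevel φ) : IsOpen (φ.ker : Set Γℚ) := by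
  obtain ⟨L, hL, hφ⟩ := h
  haveI := hL
  refine Subgroup.isOpen_mono (H₁ := L.fixingSubgroup) ?_
    (IntermediateField.fixingSubgroup_isOpen L)
  intro σ hσ
  rw [MonoidHom.mem_ker]
  apply hφ
  intro x hx
  exact (IntermediateField.mem_fixingSubgroup_iff L σ).mp hσ x hx

/-- the image of a prime field element under `algebraMap (ZMod ℓ) k` -/
theorem dskm_PF_exists_zmod (ℓ : ℕ) {k : Type} [Field k] [Algebra (ZMod ℓ) k] {x : k}
    (hx : dskdPF k x) : ∃ t : ZMod ℓ, algebraMap (ZMod ℓ) k t = x := by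
  obtain ⟨n, hn⟩ := hx
  exact ⟨(n : ZMod ℓ), by rw [map_intCast, hn]⟩

theorem dskm_algebraMap_val (ℓ : ℕ) [NeZero ℓ] {k : Type} [Field k] [Algebra (ZMod ℓ) k]
    (t : ZMod ℓ) : algebraMap (ZMod ℓ) k t = ((t.val : ℕ) : k) := by
  conv_lhs => rw [← ZMod.natCast_zmod_val t]
  rw [map_natCast]

/-- **K1** (assembly of K1a, K1b, weak Chebotarev `fd_exists_isFrobeniusAt_hom`): the mod `ℓ`
representations over the prime field exist for primes `ℓ` beyond any bound. -/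
theorem dsk_modRep_exists {N : ℕ} (hN : N ≠ 0) {a e : ℕ → ℂ} {K : IntermediateField ℚ ℂ}
    (hK : DsCoeffField N a K) (heK : ∀ p : DsfPrime N, e p ∈ K) (m : ℕ) (hm : 0 < m)
    (he : ∀ p : ℕ, p.Prime → ¬ p ∣ N → e p ^ m = 1)
    (hC : DsResidualExists N a e K) (B : ℕ) :
    ∃ ℓ : ℕ, B < ℓ ∧ ℓ.Prime ∧ ∃ Λ : Ideal DsZbar, Λ.IsMaximal ∧ (ℓ : DsZbar) ∈ Λ ∧
      ∃ ρ : Γℚ →* GL (Fin 2) (ZMod ℓ), DskModRep N a e ℓ Λ ρ := by
  classical
  haveI := hK.finite
  obtain ⟨B₀, hC⟩ := hC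
  obtain ⟨ℓ, hℓB, hℓ, Λ, hΛ, hℓΛ, hdeg⟩ :=
    dsk_exists_degree_one K (max B (max (2 * N) B₀))
  have hℓB' : B < ℓ := lt_of_le_of_lt (le_max_left _ _) hℓB
  have hℓN : 2 * N < ℓ :=
    lt_of_le_of_lt (le_trans (le_max_left _ _) (le_max_right _ _)) hℓB
  have hℓB₀ : B₀ < ℓ :=
    lt_of_le_of_lt (le_trans (le_max_right _ _) (le_max_right _ _)) hℓB
  refine ⟨ℓ, hℓB', hℓ, Λ, hΛ, hℓΛ, ?_⟩
  haveI : Fact ℓ.Prime := ⟨hℓ⟩
  have hNpos : 0 < N := Nat.pos_of_ne_zero hN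
  have hnd : ¬ ℓ ∣ 2 * N := Nat.not_dvd_of_pos_of_lt (by omega) hℓN
  have hℓ2 : ℓ ≠ 2 := by omega
  obtain ⟨k, instF, instC, φ, hφ, ρk, hunr, hfrob⟩ := hC ℓ hℓ hℓB₀ hnd Λ hΛ hℓΛ
  letI alg : Algebra (ZMod ℓ) k := ZMod.algebra k ℓ
  -- `φ` maps the integers of `K` into the prime field
  have hPFφ : ∀ x : DsZbar, (x : ℂ) ∈ K → dskdPF k (φ x) := by
    intro x hx
    obtain ⟨n, z, hzΛ, hz⟩ := hdeg (x : ℂ) hx x.2
    have hzK : (z : ℂ) ∈ K := by
      rw [hz]
      exact K.sub_mem hx (natCast_mem K n)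
    have hz0 : φ z = 0 := (hφ z hzK).mpr hzΛ
    have hxz : x = z + (n : DsZbar) := by
      apply Subtype.ext
      push_cast
      rw [hz]
      ring
    refine ⟨(n : ℤ), ?_⟩
    rw [hxz, map_add, hz0, zero_add, map_natCast, Int.cast_natCast]
  -- the finite quotient through which `ρk` factors
  set U : Subgroup Γℚ := ρk.ρ.ker with hU
  haveI : U.Normal := MonoidHom.normal_ker ρk.ρ
  have hUopen : IsOpen (U : Set Γℚ) := dskm_isOpen_ker ρk.ρ ρk.factorsThroughFiniteLevel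
  haveI : Finite (Γℚ ⧸ U) := Subgroup.quotient_finite_of_isOpen U hUopen
  let π : Γℚ →* Γℚ ⧸ U := QuotientGroup.mk' U
  have hπker : π.ker = U := QuotientGroup.ker_mk' U
  let ρbar : Γℚ ⧸ U →* Module.End k ρk.V := QuotientGroup.lift U ρk.ρ le_rfl
  have hρbar : ∀ σ : Γℚ, ρbar (π σ) = ρk.ρ σ := fun σ => rfl
  have hπ1 : ∀ σ : Γℚ, ρk.ρ σ = 1 → π σ = 1 := by
    intro σ hσ
    exact (QuotientGroup.eq_one_iff σ).mpr (MonoidHom.mem_ker.mpr hσ)
  have hNℓ : N * ℓ ≠ 0 := Nat.mul_ne_zero hNpos.ne' hℓ.ne_zero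
  -- Frobenius elements have prime field characteristic polynomials
  have hgoodF : ∀ q : ℕ, q.Prime → ¬ q ∣ N * ℓ →
      ∀ A : ValuationSubring (AlgebraicClosure ℚ), A.LiesOverPrime q →
        ∀ σ : Γℚ, A.IsFrobeniusAt σ q → ∃ t d : k, dskdPF k t ∧ dskdPF k d ∧
          LinearMap.charpoly (ρk.ρ σ) = X ^ 2 - C t * X + C d := by
    intro q hq hqn A hA σ hσ
    obtain ⟨x, y, hx, hy, hcp⟩ := hfrob q hq hqn A hA σ hσ
    have hqN : ¬ q ∣ N := fun h => hqn (Dvd.dvd.mul_right h ℓ)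
    refine ⟨φ x, φ y, hPFφ x ?_, hPFφ y ?_, hcp⟩
    · rw [hx]
      exact hK.mem ⟨q, hq, hqN⟩
    · rw [hy]
      exact heK ⟨q, hq, hqN⟩
  -- all elements of the quotient have prime field characteristic polynomials
  have hall : ∀ g : Γℚ ⧸ U, ∃ t d : ZMod ℓ, LinearMap.charpoly (ρbar g) =
      X ^ 2 - C (algebraMap (ZMod ℓ) k t) * X + C (algebraMap (ZMod ℓ) k d) := by
    intro g
    obtain ⟨σ, rfl⟩ := QuotientGroup.mk_surjective g
    obtain ⟨q, hq, hqB, c, hccop, ⟨A, hA, φ', hφ', hres⟩, -⟩ :=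
      Fermat.Agent.S56.fd_exists_isFrobeniusAt_hom π (by rw [hπker]; exact hUopen) σ
        (N * ℓ).divisors
    have hqn : ¬ q ∣ N * ℓ := fun h => hqB (Nat.mem_divisors.mpr ⟨h, hNℓ⟩)
    obtain ⟨t, d, ht, hd, hcp⟩ := hgoodF q hq hqn A hA φ' hφ'
    obtain ⟨r, hr⟩ := exists_pow_eq_self_of_coprime hccop
    have h1 : ρbar (π σ) = (ρk.ρ φ') ^ r := by
      rw [← hρbar φ', ← map_pow, hres, hr]
    obtain ⟨t', d', ht', hd', hcp'⟩ := dskm_charpoly_pow ρk.finrank_eq (ρk.ρ φ') ht hd hcp r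
    obtain ⟨t₀, ht₀⟩ := dskm_PF_exists_zmod ℓ ht'
    obtain ⟨d₀, hd₀⟩ := dskm_PF_exists_zmod ℓ hd'
    refine ⟨t₀, d₀, ?_⟩
    show LinearMap.charpoly (ρbar (π σ)) = _
    rw [h1, hcp', ht₀, hd₀]
  obtain ⟨ρ₀, hss, -, hcp₀⟩ := dsk_descend ℓ hℓ2 ρk.finrank_eq ρbar hall
  refine ⟨ρ₀.comp π, ?_⟩
  refine
    { finiteLevel := ?_
      semisimple := ?_
      unram := ?_
      frob := ?_ }
  · obtain ⟨L, hL, hL1⟩ := ρk.factorsThroughFiniteLevel
    refine ⟨L, hL, fun σ hσ => ?_⟩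
    rw [MonoidHom.comp_apply, hπ1 σ (hL1 σ hσ), map_one]
  · intro W hW
    have hW' : ∀ g ∈ ρ₀.range, ∀ w ∈ W,
        (g : Matrix (Fin 2) (Fin 2) (ZMod ℓ)).mulVec w ∈ W := by
      rintro _ ⟨g, rfl⟩ w hw
      obtain ⟨σ, rfl⟩ := QuotientGroup.mk_surjective g
      exact hW _ ⟨σ, rfl⟩ w hw
    obtain ⟨W', hW'st, hc⟩ := hss W hW'
    refine ⟨W', ?_, hc⟩
    rintro _ ⟨σ, rfl⟩ w hw
    exact hW'st _ ⟨π σ, rfl⟩ w hw
  · intro p hp hpn A hA σ hσ
    rw [MonoidHom.comp_apply, hπ1 σ (hunr p hp hpn A hA σ hσ), map_one]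
  · intro p hp hpn A hA σ hσ
    obtain ⟨x, y, hx, hy, hcp⟩ := hfrob p hp hpn A hA σ hσ
    have hpN : ¬ p ∣ N := fun h => hpn (Dvd.dvd.mul_right h ℓ)
    have h1 := hcp₀ (π σ)
    rw [hρbar σ, hcp, Matrix.charpoly_fin_two] at h1
    simp only [Polynomial.map_add, Polynomial.map_sub, Polynomial.map_mul, Polynomial.map_pow,
      Polynomial.map_X, Polynomial.map_C] at h1
    obtain ⟨h2, h3⟩ := dskd_quad_inj h1
    rw [dskm_algebraMap_val] at h2 h3
    have hxK : (x : ℂ) ∈ K := by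
      rw [hx]
      exact hK.mem ⟨p, hp, hpN⟩
    have hyK : (y : ℂ) ∈ K := by
      rw [hy]
      exact heK ⟨p, hp, hpN⟩
    have hcongr : ∀ (x : DsZbar) (n : ℕ), (x : ℂ) ∈ K → φ x = (n : k) →
        DsCongr Λ (x : ℂ) (n : ℂ) := by
      intro x n hxK hxn
      refine ⟨x - (n : DsZbar), ?_, by push_cast; ring⟩
      refine (hφ _ ?_).mp ?_
      · push_cast
        exact K.sub_mem hxK (natCast_mem K n)
      · rw [map_sub, map_natCast, hxn, sub_self]
    constructor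
    · rw [← hx]
      exact hcongr x _ hxK h2
    · rw [← hy]
      exact hcongr y _ hyK h3

end Fermat.Agent.DS
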