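/-
Program DS (S48), package K, row K3: a nonzero algebraic integer lies in maximal ideals of only
finitely many residue characteristics; pigeonhole and separation for finite sets of polynomials.
-/
import Mathlib
import Fermat.Agent.DS.K.Defs

set_option autoImplicit false

open Polynomial

namespace Fermat.Agent.DS

/-- A nonzero algebraic integer belongs to proper ideals containing a prime number `ℓ` only for
`ℓ` below a bound. -/
theorem dsk_bound_of_ne_zero (z : DsZbar) (hz : z ≠ 0) :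
    ∃ B : ℕ, ∀ ℓ : ℕ, ℓ.Prime → ∀ Λ : Ideal DsZbar, Λ ≠ ⊤ → (ℓ : DsZbar) ∈ Λ → z ∈ Λ → ℓ ≤ B := by
  have hint : IsIntegral ℤ z := IsIntegralClosure.isIntegral ℤ ℂ z
  obtain ⟨p₀, hp₀m, hp₀⟩ := hint
  obtain ⟨p, hpq, hXp⟩ := Polynomial.exists_eq_pow_rootMultiplicity_mul_and_not_dvd p₀
    hp₀m.ne_zero 0
  rw [C_0, sub_zero] at hpq hXp
  have hp0 : p.coeff 0 ≠ 0 := fun h0 => hXp (Polynomial.X_dvd_iff.mpr h0)
  have hev : aeval z p = 0 := by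
    have h1 : aeval z p₀ = 0 := by rw [aeval_def]; exact hp₀
    rw [hpq, map_mul, map_pow, aeval_X] at h1
    rcases mul_eq_zero.mp h1 with h2 | h2
    · exact absurd (eq_zero_of_pow_eq_zero h2) hz
    · exact h2
  refine ⟨(p.coeff 0).natAbs, fun ℓ hℓ Λ hΛ hℓΛ hzΛ => ?_⟩
  -- `p.coeff 0 ∈ Λ`
  have hdiv : p = p.divX * X + C (p.coeff 0) := (Polynomial.divX_mul_X_add p).symm
  have hc0 : ((p.coeff 0 : ℤ) : DsZbar) ∈ Λ := by
    have h1 : aeval z p = aeval z p.divX * z + ((p.coeff 0 : ℤ) : DsZbar) := by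
      conv_lhs => rw [hdiv]
      simp
    rw [hev] at h1
    have h2 : ((p.coeff 0 : ℤ) : DsZbar) = -(aeval z p.divX * z) := by
      linear_combination -h1
    rw [h2]
    exact Λ.neg_mem (Λ.mul_mem_left _ hzΛ)
  -- if `ℓ ∤ p.coeff 0` then `1 ∈ Λ`
  by_contra hlt
  push_neg at hlt
  have hndvd : ¬ (ℓ : ℤ) ∣ p.coeff 0 := by
    intro hd
    have := Int.natAbs_dvd_natAbs.mpr hd
    rw [Int.natAbs_natCast] at this
    have hpos : 0 < (p.coeff 0).natAbs := Int.natAbs_pos.mpr hp0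
    exact absurd (Nat.le_of_dvd hpos this) (not_le.mpr hlt)
  have hcop : IsCoprime (ℓ : ℤ) (p.coeff 0) :=
    (Nat.prime_iff_prime_int.mp hℓ).coprime_iff_not_dvd.mpr hndvd
  obtain ⟨u, v, huv⟩ := hcop
  apply hΛ
  rw [Ideal.eq_top_iff_one]
  have h1 : ((u * (ℓ : ℤ) + v * p.coeff 0 : ℤ) : DsZbar) = 1 := by rw [huv]; simp
  rw [← h1]
  push_cast
  exact Λ.add_mem (Λ.mul_mem_left _ hℓΛ) (Λ.mul_mem_left _ hc0)

/-- two distinct complex numbers are congruent modulo a maximal ideal of residue characteristic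
`ℓ` only for `ℓ` below a bound. -/
theorem dsk_bound_of_ne (x y : ℂ) (hxy : x ≠ y) :
    ∃ B : ℕ, ∀ ℓ : ℕ, ℓ.Prime → ∀ Λ : Ideal DsZbar, Λ.IsMaximal → (ℓ : DsZbar) ∈ Λ →
      DsCongr Λ x y → ℓ ≤ B := by
  by_cases hint : IsIntegral ℤ (x - y)
  · set z : DsZbar := ⟨x - y, hint⟩ with hz
    have hz0 : z ≠ 0 := by
      intro h0
      have := congrArg (fun w : DsZbar => (w : ℂ)) h0
      simp only [hz] at this
      exact hxy (sub_eq_zero.mp (by simpa using this))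
    obtain ⟨B, hB⟩ := dsk_bound_of_ne_zero z hz0
    refine ⟨B, fun ℓ hℓ Λ hΛ hℓΛ hc => ?_⟩
    obtain ⟨w, hwΛ, hw⟩ := hc
    have : w = z := Subtype.ext (by rw [hw])
    exact hB ℓ hℓ Λ hΛ.ne_top hℓΛ (this ▸ hwΛ)
  · refine ⟨0, fun ℓ _ Λ _ _ hc => ?_⟩
    obtain ⟨w, _, hw⟩ := hc
    exact absurd (hw ▸ w.2) hint

/-- two distinct polynomials are coefficientwise congruent modulo a maximal ideal of residue
characteristic `ℓ` only for `ℓ` below a bound. -/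
theorem dsk_bound_of_poly_ne (P Q : ℂ[X]) (hPQ : P ≠ Q) :
    ∃ B : ℕ, ∀ ℓ : ℕ, ℓ.Prime → ∀ Λ : Ideal DsZbar, Λ.IsMaximal → (ℓ : DsZbar) ∈ Λ →
      (∀ i : ℕ, DsCongr Λ (P.coeff i) (Q.coeff i)) → ℓ ≤ B := by
  obtain ⟨i, hi⟩ : ∃ i, P.coeff i ≠ Q.coeff i := by
    by_contra hcon
    push Not at hcon
    exact hPQ (Polynomial.ext hcon)
  obtain ⟨B, hB⟩ := dsk_bound_of_ne _ _ hi
  exact ⟨B, fun ℓ hℓ Λ hΛ hℓΛ hc => hB ℓ hℓ Λ hΛ hℓΛ (hc i)⟩

/-- K3' : distinct members of a finite set of polynomials stay distinct modulo every `Λ` of large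
residue characteristic. -/
theorem dsk_separate (Y : Set ℂ[X]) (hY : Y.Finite) :
    ∃ B : ℕ, ∀ ℓ : ℕ, B < ℓ → ℓ.Prime → ∀ Λ : Ideal DsZbar, Λ.IsMaximal → (ℓ : DsZbar) ∈ Λ →
      ∀ P ∈ Y, ∀ Q ∈ Y, (∀ i : ℕ, DsCongr Λ (P.coeff i) (Q.coeff i)) → P = Q := by
  classical
  choose! b hb using fun (PQ : ℂ[X] × ℂ[X]) (h : PQ.1 ≠ PQ.2) => dsk_bound_of_poly_ne PQ.1 PQ.2 h
  set S : Finset (ℂ[X] × ℂ[X]) := hY.toFinset ×ˢ hY.toFinset with hS
  refine ⟨S.sup b, fun ℓ hBℓ hℓ Λ hΛ hℓΛ P hP Q hQ hc => ?_⟩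
  by_contra hne
  have hmem : (P, Q) ∈ S := by
    rw [hS, Finset.mem_product]
    exact ⟨hY.mem_toFinset.mpr hP, hY.mem_toFinset.mpr hQ⟩
  have h1 : ℓ ≤ b (P, Q) := hb (P, Q) hne ℓ hℓ Λ hΛ hℓΛ hc
  have h2 : b (P, Q) ≤ S.sup b := Finset.le_sup hmem
  omega

/-- K3 (pigeonhole, DS (8.7)): a polynomial with algebraic integer coefficients which is
congruent to a member of the finite set `Y` modulo maximal ideals `Λ` of infinitely many different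
residue characteristics belongs to `Y`. -/
theorem dsk_pigeonhole (Y : Set ℂ[X]) (hY : Y.Finite) (P : ℂ[X])
    (h : ∀ B : ℕ, ∃ ℓ : ℕ, B < ℓ ∧ ℓ.Prime ∧ ∃ Λ : Ideal DsZbar, Λ.IsMaximal ∧ (ℓ : DsZbar) ∈ Λ ∧
      ∃ Q ∈ Y, ∀ i : ℕ, DsCongr Λ (P.coeff i) (Q.coeff i)) : P ∈ Y := by
  classical
  by_contra hPY
  choose! b hb using fun (Q : ℂ[X]) (h : P ≠ Q) => dsk_bound_of_poly_ne P Q h
  obtain ⟨ℓ, hBℓ, hℓ, Λ, hΛ, hℓΛ, Q, hQ, hc⟩ := h (hY.toFinset.sup b)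
  have hne : P ≠ Q := fun hPQ => hPY (hPQ ▸ hQ)
  have h1 : ℓ ≤ b Q := hb Q hne ℓ hℓ Λ hΛ hℓΛ hc
  have h2 : b Q ≤ hY.toFinset.sup b := Finset.le_sup (hY.mem_toFinset.mpr hQ)
  omega

theorem dskRootPolys_finite (n : ℕ) (hn : 0 < n) : (dskRootPolys n).Finite := by
  have hroots : {α : ℂ | α ^ n = 1}.Finite := by
    have hne : (X ^ n - 1 : ℂ[X]) ≠ 0 := X_pow_sub_C_ne_zero hn 1
    refine ((X ^ n - 1 : ℂ[X]).roots.toFinset.finite_toSet).subset ?_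
    intro α hα
    simp only [Set.mem_setOf_eq] at hα
    simp only [Finset.mem_coe, Multiset.mem_toFinset]
    rw [Polynomial.mem_roots hne]
    simp [hα]
  refine (Set.Finite.image2 (fun α β : ℂ => (X - C α) * (X - C β)) hroots hroots).subset ?_
  rintro P ⟨α, β, hα, hβ, rfl⟩
  exact ⟨α, hα, β, hβ, rfl⟩

end Fermat.Agent.DS
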