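/-
Program DS (S48, Deligne–Serre), package K, row K4: complex representations with EXACT Frobenius
polynomials away from `N ℓ` (`dsk_cplxRep_exists`): K1 (mod `ℓ` representations), K2 (bounded
images), the lifting black box (J), K3 (pigeonhole + separation).
-/
import Fermat.Agent.DS.K.Pigeon
import Fermat.Agent.DS.K.ModRep
import Fermat.Agent.DS.K.Bounded
import Fermat.Agent.S54.ExistsFrobenius

set_option autoImplicit false

open Polynomial Filter Topology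

namespace Fermat.Agent.DS

local notation "Γℚ" => (AlgebraicClosure ℚ ≃ₐ[ℚ] AlgebraicClosure ℚ)

/-! ### the calculus of `DsCongr` -/

theorem dskx_congr_symm {Λ : Ideal DsZbar} {x y : ℂ} (h : DsCongr Λ x y) : DsCongr Λ y x := by
  obtain ⟨z, hz, hzx⟩ := h
  exact ⟨-z, Λ.neg_mem hz, by push_cast; rw [hzx]; ring⟩

theorem dskx_congr_trans {Λ : Ideal DsZbar} {x y w : ℂ} (h : DsCongr Λ x y)
    (h' : DsCongr Λ y w) : DsCongr Λ x w := by
  obtain ⟨z, hz, hzx⟩ := h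
  obtain ⟨z', hz', hzx'⟩ := h'
  exact ⟨z + z', Λ.add_mem hz hz', by push_cast; rw [hzx, hzx']; ring⟩

/-- congruent `(t, d)` give coefficientwise congruent polynomials `X² - t X + d` -/
theorem dskx_congr_poly {Λ : Ideal DsZbar} {t t' d d' : ℂ} (ht : DsCongr Λ t t')
    (hd : DsCongr Λ d d') (i : ℕ) :
    DsCongr Λ ((X ^ 2 - C t * X + C d : ℂ[X]).coeff i) ((X ^ 2 - C t' * X + C d' : ℂ[X]).coeff i) := by
  obtain ⟨z, hz, hzt⟩ := ht
  obtain ⟨w, hw, hwd⟩ := hd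
  simp only [coeff_add, coeff_sub, coeff_X_pow, coeff_C_mul_X, coeff_C]
  by_cases h0 : i = 0
  · subst h0
    refine ⟨w, hw, ?_⟩
    simp [hwd]
  by_cases h1 : i = 1
  · subst h1
    refine ⟨-z, Λ.neg_mem hz, ?_⟩
    push_cast
    simp [hzt]
    ring
  · refine ⟨0, Λ.zero_mem, ?_⟩
    simp [h0, h1]

/-! ### characteristic polynomials of matrices of finite order -/

theorem dskx_charpoly_mem {g : GL (Fin 2) ℂ} {n : ℕ} (hg : g ^ n = 1) :
    (g : Matrix (Fin 2) (Fin 2) ℂ).charpoly ∈ dskRootPolys n := by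
  set A : Matrix (Fin 2) (Fin 2) ℂ := (g : Matrix (Fin 2) (Fin 2) ℂ) with hA
  have hAn : A ^ n = 1 := by
    rw [hA, ← Units.val_pow_eq_pow_val, hg, Units.val_one]
  -- a root of the characteristic polynomial is an `n`-th root of unity
  have hroot : ∀ α : ℂ, A.charpoly.IsRoot α → α ^ n = 1 := by
    intro α hα
    have h1 : α ∈ spectrum ℂ A := Matrix.mem_spectrum_iff_isRoot_charpoly.mpr hα
    have h2 : α ^ n ∈ spectrum ℂ (A ^ n) := spectrum.pow_mem_pow A n h1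
    rw [hAn, spectrum.one_eq] at h2
    exact h2
  have hdeg : A.charpoly.degree ≠ 0 := by
    rw [Matrix.charpoly_degree_eq_dim, Fintype.card_fin]
    norm_num
  obtain ⟨α, hα⟩ := IsAlgClosed.exists_root A.charpoly hdeg
  have hq : α ^ 2 - A.trace * α + A.det = 0 := by
    have := hα
    rw [IsRoot.def, Matrix.charpoly_fin_two] at this
    simpa using this
  set β : ℂ := A.trace - α with hβ
  have hfac : A.charpoly = (X - C α) * (X - C β) := by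
    rw [Matrix.charpoly_fin_two]
    have hd : A.det = α * β := by
      rw [hβ]
      linear_combination hq
    have ht : A.trace = α + β := by
      rw [hβ]
      ring
    rw [hd, ht]
    simp only [map_add, map_mul]
    ring
  have hβroot : A.charpoly.IsRoot β := by
    rw [hfac, IsRoot.def]
    simp
  exact ⟨α, β, hroot α hα, hroot β hβroot, hfac⟩

/-! ### lifted data -/

theorem dskx_exists_lift {N : ℕ} (hN : N ≠ 0) {a e : ℕ → ℂ} {K : IntermediateField ℚ ℂ}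
    (hK : DsCoeffField N a K) (heK : ∀ p : DsfPrime N, e p ∈ K) (m : ℕ) (hm : 0 < m)
    (he : ∀ p : ℕ, p.Prime → ¬ p ∣ N → e p ^ m = 1)
    (hC : DsResidualExists N a e K) (hJ : DsLift) (B₂ : ℕ)
    (hB₂ : ∀ (ℓ : ℕ), ℓ.Prime → ∀ (Λ : Ideal DsZbar), Λ.IsMaximal → (ℓ : DsZbar) ∈ Λ →
      ∀ ρ : Γℚ →* GL (Fin 2) (ZMod ℓ), DskModRep N a e ℓ Λ ρ → Nat.card ρ.range ≤ B₂) (B' : ℕ) :
    ∃ ℓ : ℕ, B' < ℓ ∧ ℓ.Prime ∧ ∃ Λ : Ideal DsZbar, Λ.IsMaximal ∧ (ℓ : DsZbar) ∈ Λ ∧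
      ∃ ρ : Γℚ →* GL (Fin 2) ℂ, GaloisFactorsThroughFiniteLevel ρ ∧
        (∀ p : ℕ, p.Prime → ¬ p ∣ N * ℓ → DsUnramAt ρ p) ∧
        (∀ σ : Γℚ, ((ρ σ : GL (Fin 2) ℂ) : Matrix (Fin 2) (Fin 2) ℂ).charpoly ∈
          dskRootPolys B₂.factorial) ∧
        ∀ p : ℕ, p.Prime → ¬ p ∣ N * ℓ →
          ∀ A : ValuationSubring (AlgebraicClosure ℚ), A.LiesOverPrime p →
            ∀ σ : Γℚ, A.IsFrobeniusAt σ p →
              DsCongr Λ (a p) ((ρ σ : Matrix (Fin 2) (Fin 2) ℂ).trace) ∧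
              DsCongr Λ (e p) ((ρ σ : Matrix (Fin 2) (Fin 2) ℂ).det) := by
  obtain ⟨ℓ, hℓB, hℓ, Λ, hΛ, hℓΛ, ρb, hρb⟩ :=
    dsk_modRep_exists hN hK heK m hm he hC (max B' (max B₂ 2))
  have : Fact ℓ.Prime := ⟨hℓ⟩
  have hB' : B' < ℓ := lt_of_le_of_lt (le_max_left _ _) hℓB
  have hB₂ℓ : B₂ < ℓ :=
    lt_of_le_of_lt ((le_max_left _ _).trans (le_max_right _ _)) hℓB
  have h2ℓ : 2 < ℓ := lt_of_le_of_lt ((le_max_right _ _).trans (le_max_right _ _)) hℓB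
  have hle : Nat.card ρb.range ≤ B₂ := hB₂ ℓ hℓ Λ hΛ hℓΛ ρb hρb
  obtain ⟨ρ, hker, hcong⟩ := hJ ℓ h2ℓ Λ hΛ hℓΛ ρb (lt_of_le_of_lt hle hB₂ℓ)
  have key : ∀ σ : Γℚ, ρb σ = 1 → ρ σ = 1 := by
    intro σ hσ
    have h1 : σ ∈ ρb.ker := MonoidHom.mem_ker.mpr hσ
    rw [← hker] at h1
    exact MonoidHom.mem_ker.mp h1
  refine ⟨ℓ, hB', hℓ, Λ, hΛ, hℓΛ, ρ, ?_, ?_, ?_, ?_⟩
  · obtain ⟨L, hL, hLρ⟩ := hρb.finiteLevel
    exact ⟨L, hL, fun σ hσ => key σ (hLρ σ hσ)⟩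
  · intro p hp hpN A hA σ hσ
    exact key σ (hρb.unram p hp hpN A hA σ hσ)
  · intro σ
    have hfin : Finite ρb.range := Finite.of_injective (fun x => (x : GL (Fin 2) (ZMod ℓ)))
      Subtype.val_injective
    have hpos : 0 < Nat.card ρb.range := Nat.card_pos
    have hdvd : Nat.card ρb.range ∣ B₂.factorial := Nat.dvd_factorial hpos hle
    have h1 : (⟨ρb σ, σ, rfl⟩ : ρb.range) ^ Nat.card ρb.range = 1 := pow_card_eq_one'
    have h2 : (⟨ρb σ, σ, rfl⟩ : ρb.range) ^ B₂.factorial = 1 := by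
      obtain ⟨c, hc⟩ := hdvd
      rw [hc, pow_mul, h1, one_pow]
    have h3 : ρb σ ^ B₂.factorial = 1 := by
      have := congrArg Subtype.val h2
      simpa using this
    have h4 : ρ σ ^ B₂.factorial = 1 := by
      rw [← map_pow]
      apply key
      rw [map_pow, h3]
    exact dskx_charpoly_mem h4
  · intro p hp hpN A hA σ hσ
    obtain ⟨ht, hd⟩ := hρb.frob p hp hpN A hA σ hσ
    obtain ⟨ht', hd'⟩ := hcong σ
    exact ⟨dskx_congr_trans ht (dskx_congr_symm ht'), dskx_congr_trans hd (dskx_congr_symm hd')⟩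

/-! ### K4 -/

theorem dskx_core {N : ℕ} (hN : N ≠ 0) {a e : ℕ → ℂ} {K : IntermediateField ℚ ℂ}
    (hK : DsCoeffField N a K) (heK : ∀ p : DsfPrime N, e p ∈ K) (m : ℕ) (hm : 0 < m)
    (he : ∀ p : ℕ, p.Prime → ¬ p ∣ N → e p ^ m = 1)
    (hC : DsResidualExists N a e K) (hH : DsChebotarev) (hI : DsProp72) (hJ : DsLift) (B : ℕ) :
    ∃ ℓ : ℕ, B < ℓ ∧ ℓ.Prime ∧ ∃ ρ : Γℚ →* GL (Fin 2) ℂ, DskCplxRep N a e ℓ ρ := by
  obtain ⟨B₂, hB₂⟩ := dsk_bounded_image hN hK m hm he hH hI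
  set Y : Set ℂ[X] := dskRootPolys B₂.factorial with hY
  have hYfin : Y.Finite := dskRootPolys_finite _ (Nat.factorial_pos _)
  obtain ⟨B₃, hB₃⟩ := dsk_separate Y hYfin
  have hlift := dskx_exists_lift hN hK heK m hm he hC hJ B₂ hB₂
  -- the Frobenius polynomials belong to `Y`
  have hP : ∀ p : ℕ, p.Prime → ¬ p ∣ N → (X ^ 2 - C (a p) * X + C (e p) : ℂ[X]) ∈ Y := by
    intro p hp hpN
    refine dsk_pigeonhole Y hYfin _ fun B' => ?_
    obtain ⟨ℓ, hℓB, hℓ, Λ, hΛ, hℓΛ, ρ, -, -, hmem, hfrob⟩ := hlift (max B' p)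
    have hpℓ : ¬ p ∣ N * ℓ := by
      intro hd
      rcases (Nat.Prime.dvd_mul hp).1 hd with h | h
      · exact hpN h
      · have h1 : p = ℓ := (Nat.prime_dvd_prime_iff_eq hp hℓ).1 h
        have h2 : p < ℓ := lt_of_le_of_lt (le_max_right _ _) hℓB
        omega
    obtain ⟨A, hA, σ, hσ⟩ := Fermat.Agent.S54.exists_liesOverPrime_and_isFrobeniusAt p hp
    obtain ⟨ht, hd⟩ := hfrob p hp hpℓ A hA σ hσ
    refine ⟨ℓ, lt_of_le_of_lt (le_max_left _ _) hℓB, hℓ, Λ, hΛ, hℓΛ, _, hmem σ, fun i => ?_⟩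
    rw [Matrix.charpoly_fin_two]
    exact dskx_congr_poly ht hd i
  -- the representation at a large prime
  obtain ⟨ℓ, hℓB, hℓ, Λ, hΛ, hℓΛ, ρ, hfl, hunr, hmem, hfrob⟩ := hlift (max B B₃)
  refine ⟨ℓ, lt_of_le_of_lt (le_max_left _ _) hℓB, hℓ, ρ, hfl, hunr, ?_⟩
  intro p hp hpℓ A hA σ hσ
  have hpN : ¬ p ∣ N := fun h => hpℓ (Dvd.dvd.mul_right h ℓ)
  obtain ⟨ht, hd⟩ := hfrob p hp hpℓ A hA σ hσ
  have heq : (X ^ 2 - C (a p) * X + C (e p) : ℂ[X]) =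
      ((ρ σ : GL (Fin 2) ℂ) : Matrix (Fin 2) (Fin 2) ℂ).charpoly := by
    refine hB₃ ℓ (lt_of_le_of_lt (le_max_right _ _) hℓB) hℓ Λ hΛ hℓΛ _ (hP p hp hpN) _ (hmem σ)
      fun i => ?_
    rw [Matrix.charpoly_fin_two]
    exact dskx_congr_poly ht hd i
  rw [Matrix.charpoly_fin_two] at heq
  have h0 := congrArg (fun P : ℂ[X] => P.coeff 0) heq
  have h1 := congrArg (fun P : ℂ[X] => P.coeff 1) heq
  simp only [coeff_add, coeff_sub, coeff_X_pow, coeff_C_mul_X, coeff_C] at h0 h1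
  constructor
  · have : -(a p) = -((ρ σ : GL (Fin 2) ℂ) : Matrix (Fin 2) (Fin 2) ℂ).trace := by
      simpa using h1
    exact (neg_injective this).symm
  · have : e p = ((ρ σ : GL (Fin 2) ℂ) : Matrix (Fin 2) (Fin 2) ℂ).det := by
      simpa using h0
    exact this.symm

/-- K4 (DS (8.7)): complex representations with EXACT Frobenius polynomials away from `N ℓ`, for
primes `ℓ` beyond any bound. -/
theorem dsk_cplxRep_exists {N : ℕ} (hN : N ≠ 0) {a e : ℕ → ℂ} {K : IntermediateField ℚ ℂ}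
    (hK : DsCoeffField N a K) (heK : ∀ p : DsfPrime N, e p ∈ K) (m : ℕ) (hm : 0 < m)
    (he : ∀ p : ℕ, p.Prime → ¬ p ∣ N → e p ^ m = 1)
    (hC : DsResidualExists N a e K) (hH : DsChebotarev) (hI : DsProp72) (hJ : DsLift) (B : ℕ) :
    ∃ ℓ : ℕ, B < ℓ ∧ ℓ.Prime ∧ ∃ ρ : Γℚ →* GL (Fin 2) ℂ, DskCplxRep N a e ℓ ρ :=
  dskx_core hN hK heK m hm he hC hH hI hJ B

end Fermat.Agent.DS
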