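/-
Program DS (S48), package K, row K5a: 2×2 matrix lemmas (finite order + charpoly `(X-1)²` ⇒ `1`;
the characteristic polynomial of `g ^ k` is determined by that of `g`).
-/
import Mathlib
import Fermat.Agent.DS.K.Defs

set_option autoImplicit false

open Polynomial

namespace Fermat.Agent.DS

/-- Cayley–Hamilton for 2×2 matrices, in the form `M² = tr M • M - det M • 1`. -/
theorem dsk_sq_eq {R : Type} [CommRing R] (M : Matrix (Fin 2) (Fin 2) R) :
    M ^ 2 = M.trace • M - M.det • (1 : Matrix (Fin 2) (Fin 2) R) := by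
  ext i j
  fin_cases i <;> fin_cases j <;>
    simp [pow_two, Matrix.mul_apply, Fin.sum_univ_two, Matrix.trace_fin_two, Matrix.det_fin_two,
      Matrix.one_apply] <;> ring

/-- the trace of `M ^ k` is determined by the trace and determinant of `M`. -/
theorem dsk_trace_pow_eq {R : Type} [CommRing R] (M M' : Matrix (Fin 2) (Fin 2) R)
    (ht : M.trace = M'.trace) (hd : M.det = M'.det) (k : ℕ) :
    (M ^ k).trace = (M' ^ k).trace := by
  induction k using Nat.strong_induction_on with
  | _ k ih =>
    match k, ih with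
    | 0, _ => simp
    | 1, _ => simpa using ht
    | (k + 2), ih =>
      have h1 := ih k (by omega)
      have h2 := ih (k + 1) (by omega)
      have e : ∀ A : Matrix (Fin 2) (Fin 2) R,
          (A ^ (k + 2)).trace = A.trace * (A ^ (k + 1)).trace - A.det * (A ^ k).trace := by
        intro A
        have : A ^ (k + 2) = A.trace • A ^ (k + 1) - A.det • A ^ k := by
          rw [pow_add, dsk_sq_eq A, mul_sub, Matrix.mul_smul, Matrix.mul_smul, mul_one, pow_succ]
        rw [this, Matrix.trace_sub, Matrix.trace_smul, Matrix.trace_smul, smul_eq_mul, smul_eq_mul]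
      rw [e M, e M', ht, hd, h1, h2]

theorem dsk_charpoly_pow_eq {R : Type} [CommRing R] [Nontrivial R]
    (M M' : Matrix (Fin 2) (Fin 2) R) (hc : M.charpoly = M'.charpoly) (k : ℕ) :
    (M ^ k).charpoly = (M' ^ k).charpoly := by
  have ht : M.trace = M'.trace := by
    have h1 := Matrix.trace_eq_neg_charpoly_coeff M
    have h2 := Matrix.trace_eq_neg_charpoly_coeff M'
    rw [h1, h2, hc]
  have hd : M.det = M'.det := by
    rw [Matrix.det_eq_sign_charpoly_coeff, Matrix.det_eq_sign_charpoly_coeff, hc]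
  rw [Matrix.charpoly_fin_two, Matrix.charpoly_fin_two, dsk_trace_pow_eq M M' ht hd k,
    Matrix.det_pow, Matrix.det_pow, hd]

/-- K5a: two matrices with the same characteristic polynomial have the same `k`-th power
characteristic polynomials (finite order is not needed). -/
theorem dsk_charpoly_pow {g h : GL (Fin 2) ℂ} {n : ℕ} (hn : 0 < n) (hg : g ^ n = 1)
    (hh : h ^ n = 1)
    (hc : (g : Matrix (Fin 2) (Fin 2) ℂ).charpoly = (h : Matrix (Fin 2) (Fin 2) ℂ).charpoly)
    (k : ℕ) : ((g ^ k : GL (Fin 2) ℂ) : Matrix (Fin 2) (Fin 2) ℂ).charpoly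
      = ((h ^ k : GL (Fin 2) ℂ) : Matrix (Fin 2) (Fin 2) ℂ).charpoly := by
  rw [Units.val_pow_eq_pow_val, Units.val_pow_eq_pow_val]
  exact dsk_charpoly_pow_eq _ _ hc k

/-- K5a: a complex 2×2 matrix of finite order with characteristic polynomial `(X-1)²` is `1`. -/
theorem dsk_eq_one_of_charpoly {g : GL (Fin 2) ℂ} {n : ℕ} (hn : 0 < n) (hg : g ^ n = 1)
    (h : (g : Matrix (Fin 2) (Fin 2) ℂ).charpoly = (X - 1) ^ 2) : g = 1 := by
  set M : Matrix (Fin 2) (Fin 2) ℂ := (g : Matrix (Fin 2) (Fin 2) ℂ) with hM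
  -- Cayley–Hamilton: `(M - 1)² = 0`
  have hCH : (M - 1) ^ 2 = 0 := by
    have := Matrix.aeval_self_charpoly M
    rw [h] at this
    simpa using this
  set m : Matrix (Fin 2) (Fin 2) ℂ := M - 1 with hm
  have hMm : M = 1 + m := by rw [hm]; abel
  have hm2 : m * m = 0 := by rw [← pow_two]; exact hCH
  -- `(1 + m)^k = 1 + k m`
  have hpow : ∀ k : ℕ, (1 + m) ^ k = 1 + (k : ℂ) • m := by
    intro k
    induction k with
    | zero => simp
    | succ k ih =>
      rw [pow_succ, ih, mul_add, mul_one, add_mul, one_mul, Matrix.smul_mul, hm2, smul_zero,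
        add_zero]
      push_cast
      rw [add_smul, one_smul]
      abel
  have hMn : M ^ n = 1 := by
    have := congrArg (fun u : GL (Fin 2) ℂ => (u : Matrix (Fin 2) (Fin 2) ℂ)) hg
    simpa [Units.val_pow_eq_pow_val] using this
  rw [hMm, hpow n] at hMn
  have hnm : (n : ℂ) • m = 0 := by
    have := hMn
    rwa [add_eq_left] at this
  have hm0 : m = 0 := by
    rcases smul_eq_zero.mp hnm with h0 | h0
    · exact absurd (by exact_mod_cast h0 : n = 0) hn.ne'
    · exact h0
  apply Units.ext
  show M = 1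
  rw [hMm, hm0, add_zero]

end Fermat.Agent.DS
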