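/-
Program DS (S48, Deligne–Serre), package K, row K5: gluing two complex representations
(`dsk_glue`).  Weak Chebotarev (`fd_exists_isFrobeniusAt_hom`, S56/Frob/Hom) shows that
`ρ₀ σ` and `ρ₁ σ` have the same characteristic polynomial for EVERY `σ`; at `ℓ₀` the properties
of `ρ₀` are then read off from `ρ₁`.
-/
import Fermat.Agent.DS.K.Unipotent
import Fermat.Agent.S56.Frob.Hom

set_option autoImplicit false

open Polynomial Filter Topology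

namespace Fermat.Agent.DS

local notation "Γℚ" => (AlgebraicClosure ℚ ≃ₐ[ℚ] AlgebraicClosure ℚ)

/-! ### finite level ⟹ finite range, open kernel -/

theorem dskg_finite_range {M : Type} [Group M] (φ : Γℚ →* M)
    (h : GaloisFactorsThroughFiniteLevel φ) : Finite φ.range := by
  classical
  obtain ⟨L, hL, hφ⟩ := h
  have := hL
  let r : Γℚ → (↥L →ₐ[ℚ] AlgebraicClosure ℚ) :=
    fun σ => (σ : AlgebraicClosure ℚ →ₐ[ℚ] AlgebraicClosure ℚ).comp L.val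
  have hr : ∀ σ τ : Γℚ, r σ = r τ → φ σ = φ τ := by
    intro σ τ hστ
    have h1 : φ (τ⁻¹ * σ) = 1 := by
      apply hφ
      intro x hx
      have h2 : σ x = τ x := DFunLike.congr_fun hστ ⟨x, hx⟩
      rw [AlgEquiv.mul_apply, h2]
      exact τ.symm_apply_apply x
    rw [map_mul, map_inv, inv_mul_eq_one] at h1
    exact h1.symm
  have hsurj : ∀ y : φ.range, ∃ σ : Γℚ, φ σ = y := fun y => y.2
  choose pre hpre using hsurj
  have : Finite (↥L →ₐ[ℚ] AlgebraicClosure ℚ) := inferInstance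
  refine Finite.of_injective (fun y => r (pre y)) ?_
  intro y y' hyy'
  apply Subtype.ext
  rw [← hpre y, ← hpre y']
  exact hr _ _ hyy'

theorem dskg_exists_pow_eq_one {M : Type} [Group M] (φ : Γℚ →* M)
    (h : GaloisFactorsThroughFiniteLevel φ) (σ : Γℚ) : ∃ n : ℕ, 0 < n ∧ φ σ ^ n = 1 := by
  have := dskg_finite_range φ h
  obtain ⟨n, hn, hpow⟩ := (isOfFinOrder_of_finite (⟨φ σ, σ, rfl⟩ : φ.range)).exists_pow_eq_one
  refine ⟨n, hn, ?_⟩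
  have := congrArg Subtype.val hpow
  simpa using this

/-! ### `2 × 2` characteristic polynomials -/

theorem dskg_charpoly_eq_of {A B : Matrix (Fin 2) (Fin 2) ℂ} (ht : A.trace = B.trace)
    (hd : A.det = B.det) : A.charpoly = B.charpoly := by
  rw [Matrix.charpoly_fin_two, Matrix.charpoly_fin_two, ht, hd]

theorem dskg_trace_det_of_charpoly {A B : Matrix (Fin 2) (Fin 2) ℂ}
    (h : A.charpoly = B.charpoly) : A.trace = B.trace ∧ A.det = B.det := by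
  constructor
  · rw [Matrix.trace_eq_neg_charpoly_coeff, Matrix.trace_eq_neg_charpoly_coeff, h]
  · rw [Matrix.det_eq_sign_charpoly_coeff, Matrix.det_eq_sign_charpoly_coeff, h]

/-! ### equality of all characteristic polynomials -/

theorem dskg_charpoly_eq {N : ℕ} (hN : N ≠ 0) {a e : ℕ → ℂ} {ℓ₀ ℓ₁ : ℕ} (h0 : ℓ₀.Prime)
    (h1 : ℓ₁.Prime) {ρ₀ ρ₁ : Γℚ →* GL (Fin 2) ℂ} (hρ₀ : DskCplxRep N a e ℓ₀ ρ₀)
    (hρ₁ : DskCplxRep N a e ℓ₁ ρ₁) (σ : Γℚ) :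
    ((ρ₀ σ : GL (Fin 2) ℂ) : Matrix (Fin 2) (Fin 2) ℂ).charpoly =
      ((ρ₁ σ : GL (Fin 2) ℂ) : Matrix (Fin 2) (Fin 2) ℂ).charpoly := by
  classical
  obtain ⟨L₀, hL₀, hL₀ρ⟩ := hρ₀.finiteLevel
  obtain ⟨L₁, hL₁, hL₁ρ⟩ := hρ₁.finiteLevel
  have := hL₀
  have := hL₁
  set f : Γℚ →* GL (Fin 2) ℂ × GL (Fin 2) ℂ := ρ₀.prod ρ₁ with hf
  have hlevel : GaloisFactorsThroughFiniteLevel f :=
    ⟨L₀ ⊔ L₁, IntermediateField.finiteDimensional_sup L₀ L₁, fun τ hτ => by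
      rw [hf, MonoidHom.prod_apply, Prod.mk_eq_one]
      exact ⟨hL₀ρ τ fun x hx => hτ x ((le_sup_left : L₀ ≤ L₀ ⊔ L₁) hx),
        hL₁ρ τ fun x hx => hτ x ((le_sup_right : L₁ ≤ L₀ ⊔ L₁) hx)⟩⟩
  have hker : (L₀ ⊔ L₁).fixingSubgroup ≤ f.ker := by
    intro τ hτ
    obtain ⟨E, _, hE⟩ := hlevel
    rw [MonoidHom.mem_ker]
    rw [hf, MonoidHom.prod_apply, Prod.mk_eq_one]
    have hτ' := (IntermediateField.mem_fixingSubgroup_iff _ _).1 hτ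
    exact ⟨hL₀ρ τ fun x hx => hτ' x ((le_sup_left : L₀ ≤ L₀ ⊔ L₁) hx),
      hL₁ρ τ fun x hx => hτ' x ((le_sup_right : L₁ ≤ L₀ ⊔ L₁) hx)⟩
  have hopen : IsOpen (f.ker : Set Γℚ) :=
    Subgroup.isOpen_mono hker (IntermediateField.fixingSubgroup_isOpen (L₀ ⊔ L₁))
  obtain ⟨q, hq, hqB, a', ha', ⟨A, hA, φ, hφ, hfφ⟩, -⟩ :=
    Fermat.Agent.S56.fd_exists_isFrobeniusAt_hom f hopen σ (N * ℓ₀ * ℓ₁).primeFactors
  have hqN : ¬ q ∣ N * ℓ₀ * ℓ₁ := fun hd =>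
    hqB (Nat.mem_primeFactors.2
      ⟨hq, hd, mul_ne_zero (mul_ne_zero hN h0.ne_zero) h1.ne_zero⟩)
  have hq0 : ¬ q ∣ N * ℓ₀ := fun hd => hqN (Dvd.dvd.mul_right hd ℓ₁)
  have hq1 : ¬ q ∣ N * ℓ₁ := fun hd => hqN (by
    rw [mul_assoc, mul_comm ℓ₀ ℓ₁, ← mul_assoc]
    exact Dvd.dvd.mul_right hd ℓ₀)
  obtain ⟨b, hb⟩ := exists_pow_eq_self_of_coprime ha'
  have hfg : f φ ^ b = f σ := by rw [hfφ, hb]
  have hg0 : ρ₀ φ ^ b = ρ₀ σ := by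
    have h := congrArg Prod.fst hfg
    simpa [hf] using h
  have hg1 : ρ₁ φ ^ b = ρ₁ σ := by
    have h := congrArg Prod.snd hfg
    simpa [hf] using h
  obtain ⟨t0, d0⟩ := hρ₀.frob q hq hq0 A hA φ hφ
  obtain ⟨t1, d1⟩ := hρ₁.frob q hq hq1 A hA φ hφ
  have hcφ := dskg_charpoly_eq_of (t0.trans t1.symm) (d0.trans d1.symm)
  obtain ⟨n, hn, hpow⟩ := dskg_exists_pow_eq_one f hlevel φ
  have hp0 : ρ₀ φ ^ n = 1 := by
    have h := congrArg Prod.fst hpow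
    simpa [hf] using h
  have hp1 : ρ₁ φ ^ n = 1 := by
    have h := congrArg Prod.snd hpow
    simpa [hf] using h
  have := dsk_charpoly_pow hn hp0 hp1 hcφ b
  rwa [hg0, hg1] at this

/-! ### K5 -/

/-- K5 (two primes, DS (8.7) end): gluing `ρ_{ℓ₀}` and `ρ_{ℓ₁}` (weak Chebotarev only): the
representation is unramified outside `N` and has the right Frobenius polynomials at ALL `p ∤ N`. -/
theorem dsk_glue {N : ℕ} {a e : ℕ → ℂ} {ℓ₀ ℓ₁ : ℕ} (h01 : ℓ₀ ≠ ℓ₁) (h0 : ℓ₀.Prime)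
    (h1 : ℓ₁.Prime) {ρ₀ ρ₁ : Γℚ →* GL (Fin 2) ℂ} (hρ₀ : DskCplxRep N a e ℓ₀ ρ₀)
    (hρ₁ : DskCplxRep N a e ℓ₁ ρ₁) : DskCplxRep N a e 1 ρ₀ := by
  by_cases hN : N = 0
  · subst hN
    exact ⟨hρ₀.finiteLevel, fun p _ hp => absurd (by simp) hp,
      fun p _ hp => absurd (by simp) hp⟩
  -- a prime `p ∤ N` different from `ℓ₀` does not divide `N ℓ₀`
  have hnd : ∀ {p ℓ : ℕ}, p.Prime → ℓ.Prime → ¬ p ∣ N → p ≠ ℓ → ¬ p ∣ N * ℓ := by
    intro p ℓ hp hℓ hpN hpℓ hd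
    rcases (Nat.Prime.dvd_mul hp).1 hd with h | h
    · exact hpN h
    · exact hpℓ ((Nat.prime_dvd_prime_iff_eq hp hℓ).1 h)
  have hchar := dskg_charpoly_eq hN h0 h1 hρ₀ hρ₁
  refine ⟨hρ₀.finiteLevel, ?_, ?_⟩
  · intro p hp hpN A hA σ hσ
    rw [mul_one] at hpN
    by_cases hpℓ : p = ℓ₀
    · have hp1 : ¬ p ∣ N * ℓ₁ := hnd hp h1 hpN (hpℓ ▸ h01)
      have h1σ : ρ₁ σ = 1 := hρ₁.unram p hp hp1 A hA σ hσ
      have hc := hchar σ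
      rw [h1σ] at hc
      have hc' : ((ρ₀ σ : GL (Fin 2) ℂ) : Matrix (Fin 2) (Fin 2) ℂ).charpoly = (X - 1) ^ 2 := by
        rw [hc, Units.val_one, Matrix.charpoly_one, Fintype.card_fin]
      obtain ⟨n, hn, hpow⟩ := dskg_exists_pow_eq_one ρ₀ hρ₀.finiteLevel σ
      exact dsk_eq_one_of_charpoly hn hpow hc'
    · exact hρ₀.unram p hp (hnd hp h0 hpN hpℓ) A hA σ hσ
  · intro p hp hpN A hA σ hσ
    rw [mul_one] at hpN
    by_cases hpℓ : p = ℓ₀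
    · have hp1 : ¬ p ∣ N * ℓ₁ := hnd hp h1 hpN (hpℓ ▸ h01)
      obtain ⟨t1, d1⟩ := hρ₁.frob p hp hp1 A hA σ hσ
      obtain ⟨ht, hd⟩ := dskg_trace_det_of_charpoly (hchar σ)
      exact ⟨ht.trans t1, hd.trans d1⟩
    · exact hρ₀.frob p hp (hnd hp h0 hpN hpℓ) A hA σ hσ

end Fermat.Agent.DS
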