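/-
Program DS (S48, Deligne–Serre), package K, row K6: irreducibility (`dsk_irreducible`).
A reducible `ρ` has `tr ρ = χ₁ + χ₂`; with `ψ = χ₁/χ₂` (finite image `G ⊂ ℂˣ`) one gets
`‖a p‖² = ‖1 + ψ(Frob_p)‖²`, and Chebotarev for the singletons of `G` contradicts Rankin's bound.
-/
import Fermat.Agent.DS.K.Defs
import Fermat.Agent.S54.ExistsFrobenius

set_option autoImplicit false

open Polynomial Filter Topology

namespace Fermat.Agent.DS

local notation "Γℚ" => (AlgebraicClosure ℚ ≃ₐ[ℚ] AlgebraicClosure ℚ)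

/-! ### finite level ⟹ finite range -/

theorem dski_finite_range {M : Type} [Group M] (φ : Γℚ →* M)
    (h : GaloisFactorsThroughFiniteLevel φ) : Finite φ.range := by
  classical
  obtain ⟨L, hL, hφ⟩ := h
  have := hL
  -- restriction to `L`
  let r : Γℚ → (↥L →ₐ[ℚ] AlgebraicClosure ℚ) :=
    fun σ => (σ : AlgebraicClosure ℚ →ₐ[ℚ] AlgebraicClosure ℚ).comp L.val
  have hr : ∀ σ τ : Γℚ, r σ = r τ → φ σ = φ τ := by
    intro σ τ hστ
    have h1 : φ (τ⁻¹ * σ) = 1 := by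
      apply hφ
      intro x hx
      have h2 : σ x = τ x := DFunLike.congr_fun hστ ⟨x, hx⟩
      rw [AlgEquiv.mul_apply, h2]
      exact τ.symm_apply_apply x
    rw [map_mul, map_inv, inv_mul_eq_one] at h1
    exact h1.symm
  have hsurj : ∀ y : φ.range, ∃ σ : Γℚ, φ σ = y := fun y => y.2
  choose pre hpre using hsurj
  have : Finite (↥L →ₐ[ℚ] AlgebraicClosure ℚ) := inferInstance
  refine Finite.of_injective (fun y => r (pre y)) ?_
  intro y y' hyy'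
  apply Subtype.ext
  rw [← hpre y, ← hpre y']
  exact hr _ _ hyy'

/-! ### linear algebra: an eigenvalue of a `2 × 2` matrix -/

theorem dski_eigen_quadratic (M : Matrix (Fin 2) (Fin 2) ℂ) (v : Fin 2 → ℂ) (hv : v ≠ 0) (c : ℂ)
    (h : M.mulVec v = c • v) : c * c - M.trace * c + M.det = 0 := by
  have h0 : (M - c • (1 : Matrix (Fin 2) (Fin 2) ℂ)).mulVec v = 0 := by
    rw [Matrix.sub_mulVec, h, Matrix.smul_mulVec, Matrix.one_mulVec, sub_self]
  have hdet : (M - c • (1 : Matrix (Fin 2) (Fin 2) ℂ)).det = 0 :=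
    Matrix.exists_mulVec_eq_zero_iff.mp ⟨v, hv, h0⟩
  rw [Matrix.det_fin_two] at hdet
  rw [Matrix.trace_fin_two, Matrix.det_fin_two]
  simp only [Matrix.sub_apply, Matrix.smul_apply, Matrix.one_apply_eq, Matrix.one_apply_ne,
    ne_eq, Fin.isValue, zero_ne_one, one_ne_zero, not_false_eq_true, smul_eq_mul, mul_one,
    mul_zero, sub_zero] at hdet
  linear_combination hdet

/-! ### the analytic core -/

/-- regrouping a sum along the fibres of a map to a finite type -/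
theorem dski_tsum_fibre {X G : Type} [Fintype G] [DecidableEq G] (z : X → G) (c : G → ℝ)
    (g : X → ℝ) (hg : Summable g) :
    ∑' x : X, c (z x) * g x = ∑ ζ : G, c ζ * ∑' x : (z ⁻¹' {ζ} : Set X), g x := by
  have h1 : ∀ ζ : G, ∑' x : (z ⁻¹' {ζ} : Set X), g x = ∑' x : X, (z ⁻¹' {ζ}).indicator g x :=
    fun ζ => tsum_subtype (z ⁻¹' {ζ}) g
  have h2 : ∀ ζ : G, Summable (fun x : X => c ζ * (z ⁻¹' {ζ}).indicator g x) :=
    fun ζ => (hg.indicator _).mul_left _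
  simp_rw [h1, ← tsum_mul_left]
  rw [← Summable.tsum_finsetSum (fun ζ _ => h2 ζ)]
  congr 1
  funext x
  rw [Finset.sum_eq_single (z x)]
  · rw [Set.indicator_of_mem (by simp)]
  · intro ζ _ hζ
    rw [Set.indicator_of_notMem (by simpa [eq_comm] using hζ), mul_zero]
  · intro h
    exact absurd (Finset.mem_univ _) h

/-- `‖1 + ζ‖² = 2 + 2 Re ζ` on the unit circle -/
theorem dski_norm_one_add_sq (ζ : ℂ) (hζ : ‖ζ‖ = 1) : ‖1 + ζ‖ ^ 2 = 2 + 2 * ζ.re := by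
  rw [Complex.sq_norm, Complex.normSq_add, Complex.normSq_one, ← Complex.sq_norm, hζ]
  simp
  ring

/-- the elements of a finite subgroup of `ℂˣ` lie on the unit circle -/
theorem dski_norm_eq_one (G : Subgroup ℂˣ) [Fintype G] (ζ : G) : ‖((ζ : ℂˣ) : ℂ)‖ = 1 := by
  have h1 : ζ ^ Fintype.card G = 1 := pow_card_eq_one
  have h2 : ((ζ : ℂˣ) : ℂ) ^ Fintype.card G = 1 := by
    rw [← Units.val_pow_eq_pow_val, ← Subgroup.coe_pow, h1]
    rfl
  exact Complex.norm_eq_one_of_pow_eq_one h2 Fintype.card_ne_zero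

/-- `‖1 + ζ⁻¹‖ = ‖1 + ζ‖` on the unit circle -/
theorem dski_norm_one_add_inv (ζ : ℂ) (hζ : ‖ζ‖ = 1) : ‖1 + ζ⁻¹‖ = ‖1 + ζ‖ := by
  have h0 : ζ ≠ 0 := by
    intro h
    rw [h, norm_zero] at hζ
    exact zero_ne_one hζ
  have h1 : 1 + ζ⁻¹ = ζ⁻¹ * (1 + ζ) := by
    field_simp
    ring
  rw [h1, norm_mul, norm_inv, hζ, inv_one, one_mul]

/-- the sum of `‖1 + ζ‖²` over a finite subgroup of `ℂˣ` is at least twice its order -/
theorem dski_sum_ge (G : Subgroup ℂˣ) [Fintype G] :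
    2 * (Fintype.card G : ℝ) ≤ ∑ ζ : G, ‖1 + ((ζ : ℂˣ) : ℂ)‖ ^ 2 := by
  classical
  have hnorm : ∀ ζ : G, ‖((ζ : ℂˣ) : ℂ)‖ = 1 := dski_norm_eq_one G
  have hsum : (∑ ζ : G, ((ζ : ℂˣ) : ℂ)) = if G = ⊥ then 1 else 0 :=
    FiniteField.sum_subgroup_units
  have hre : 0 ≤ (∑ ζ : G, ((ζ : ℂˣ) : ℂ)).re := by
    rw [hsum]
    split_ifs <;> simp
  calc 2 * (Fintype.card G : ℝ) ≤ 2 * (Fintype.card G : ℝ) + 2 * (∑ ζ : G, ((ζ : ℂˣ) : ℂ)).re := by
        linarith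
    _ = ∑ ζ : G, (2 + 2 * ((ζ : ℂˣ) : ℂ).re) := by
        rw [Finset.sum_add_distrib, ← Finset.mul_sum, Complex.re_sum]
        simp [mul_comm]
    _ = ∑ ζ : G, ‖1 + ((ζ : ℂˣ) : ℂ)‖ ^ 2 := by
        refine Finset.sum_congr rfl fun ζ _ => ?_
        rw [dski_norm_one_add_sq _ (hnorm ζ)]

/-- summability of `p ↦ p^{-s}` over any type of natural numbers mapping injectively to `ℕ` -/
theorem dski_summable (N : ℕ) {s : ℝ} (hs : 1 < s) :
    Summable (fun p : DsfPrime N => ((p : ℕ) : ℝ) ^ (-s)) := by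
  have h : Summable (fun n : ℕ => (n : ℝ) ^ (-s)) := Real.summable_nat_rpow.mpr (by linarith)
  exact h.comp_injective Subtype.val_injective

/-! ### the contradiction from a stable line -/

theorem dski_no_stable_line {N : ℕ} (hN : N ≠ 0) {a e : ℕ → ℂ} (hR : DsRankin N a)
    (hH : DsChebotarev)
    {ρ : Γℚ →* GL (Fin 2) ℂ} (hρ : DskCplxRep N a e 1 ρ) (v : Fin 2 → ℂ) (hv : v ≠ 0)
    (hstab : ∀ σ : Γℚ, ∃ c : ℂ,
      ((ρ σ : GL (Fin 2) ℂ) : Matrix (Fin 2) (Fin 2) ℂ).mulVec v = c • v) : False := by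
  classical
  choose cfun hc using hstab
  have hinj : ∀ c c' : ℂ, c • v = c' • v → c = c' := fun c c' h => smul_left_injective ℂ hv h
  have hc_of_one : ∀ τ : Γℚ, ρ τ = 1 → cfun τ = 1 := by
    intro τ hτ
    apply hinj
    rw [← hc τ, hτ, one_smul]
    simp
  have hc_mul : ∀ σ τ : Γℚ, cfun (σ * τ) = cfun σ * cfun τ := by
    intro σ τ
    apply hinj
    rw [← hc (σ * τ), map_mul, Units.val_mul, ← Matrix.mulVec_mulVec, hc τ, Matrix.mulVec_smul,
      hc σ, smul_smul, mul_comm]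
  let cHom : Γℚ →* ℂ :=
    { toFun := cfun
      map_one' := hc_of_one 1 (map_one ρ)
      map_mul' := hc_mul }
  let χ₁ : Γℚ →* ℂˣ := cHom.toHomUnits
  have hχ₁ : ∀ σ : Γℚ, ((χ₁ σ : ℂˣ) : ℂ) = cfun σ := fun σ => rfl
  let dt : Γℚ →* ℂˣ := Matrix.GeneralLinearGroup.det.comp ρ
  have hdt : ∀ σ : Γℚ, ((dt σ : ℂˣ) : ℂ) =
      ((ρ σ : GL (Fin 2) ℂ) : Matrix (Fin 2) (Fin 2) ℂ).det := fun σ => rfl
  let ψ₀ : Γℚ →* ℂˣ := χ₁ * χ₁ * dt⁻¹
  have hψ₀ : ∀ σ : Γℚ, ψ₀ σ = χ₁ σ * χ₁ σ * (dt σ)⁻¹ := fun σ => rfl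
  have hχ₁_of_one : ∀ τ : Γℚ, ρ τ = 1 → χ₁ τ = 1 := by
    intro τ hτ
    apply Units.ext
    rw [hχ₁, hc_of_one τ hτ, Units.val_one]
  have hdt_of_one : ∀ τ : Γℚ, ρ τ = 1 → dt τ = 1 := by
    intro τ hτ
    show Matrix.GeneralLinearGroup.det (ρ τ) = 1
    rw [hτ, map_one]
  have hψ₀_of_one : ∀ τ : Γℚ, ρ τ = 1 → ψ₀ τ = 1 := by
    intro τ hτ
    rw [hψ₀, hχ₁_of_one τ hτ, hdt_of_one τ hτ]
    simp
  -- finite order
  have hfinρ : Finite ρ.range := dski_finite_range ρ hρ.finiteLevel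
  have hord : ∀ σ : Γℚ, ∃ n : ℕ, 0 < n ∧ ρ (σ ^ n) = 1 := by
    intro σ
    obtain ⟨n, hn, hpow⟩ := (isOfFinOrder_of_finite (⟨ρ σ, σ, rfl⟩ : ρ.range)).exists_pow_eq_one
    refine ⟨n, hn, ?_⟩
    rw [map_pow]
    have := congrArg Subtype.val hpow
    simpa using this
  have hnormχ : ∀ σ : Γℚ, ‖((χ₁ σ : ℂˣ) : ℂ)‖ = 1 := by
    intro σ
    obtain ⟨n, hn, h1⟩ := hord σ
    have h2 : ((χ₁ σ : ℂˣ) : ℂ) ^ n = 1 := by
      rw [← Units.val_pow_eq_pow_val, ← map_pow, hχ₁_of_one _ h1, Units.val_one]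
    exact Complex.norm_eq_one_of_pow_eq_one h2 hn.ne'
  have hnormd : ∀ σ : Γℚ, ‖((dt σ : ℂˣ) : ℂ)‖ = 1 := by
    intro σ
    obtain ⟨n, hn, h1⟩ := hord σ
    have h2 : ((dt σ : ℂˣ) : ℂ) ^ n = 1 := by
      rw [← Units.val_pow_eq_pow_val, ← map_pow, hdt_of_one _ h1, Units.val_one]
    exact Complex.norm_eq_one_of_pow_eq_one h2 hn.ne'
  -- the trace
  have htrace : ∀ σ : Γℚ, ‖((ρ σ : GL (Fin 2) ℂ) : Matrix (Fin 2) (Fin 2) ℂ).trace‖ =
      ‖1 + ((ψ₀ σ : ℂˣ) : ℂ)‖ := by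
    intro σ
    have hq := dski_eigen_quadratic _ v hv (cfun σ) (hc σ)
    rw [← hdt σ, ← hχ₁ σ] at hq
    set c : ℂˣ := χ₁ σ with hcdef
    set d : ℂˣ := dt σ with hddef
    have h1 : ((ρ σ : GL (Fin 2) ℂ) : Matrix (Fin 2) (Fin 2) ℂ).trace * (c : ℂ) =
        (d : ℂ) * (1 + ((ψ₀ σ : ℂˣ) : ℂ)) := by
      rw [hψ₀, ← hcdef, ← hddef, Units.val_mul, Units.val_mul, Units.val_inv_eq_inv_val]
      have hd0 : (d : ℂ) ≠ 0 := d.ne_zero
      field_simp
      linear_combination -hq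
    have h2 := congrArg norm h1
    rw [norm_mul, norm_mul, hnormχ σ, hnormd σ, mul_one, one_mul] at h2
    exact h2
  -- the finite group `G = ψ₀(Γℚ)`
  have hlevel₀ : GaloisFactorsThroughFiniteLevel ψ₀ := by
    obtain ⟨L, hL, hLρ⟩ := hρ.finiteLevel
    exact ⟨L, hL, fun σ hσ => hψ₀_of_one σ (hLρ σ hσ)⟩
  have hfinG : Finite ψ₀.range := dski_finite_range ψ₀ hlevel₀
  let instFT : Fintype ψ₀.range := Fintype.ofFinite _
  let ψ : Γℚ →* ψ₀.range := ψ₀.rangeRestrict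
  have hψ : ∀ σ : Γℚ, ((ψ σ : ψ₀.range) : ℂˣ) = ψ₀ σ := fun σ => rfl
  have hlevel : GaloisFactorsThroughFiniteLevel ψ := by
    obtain ⟨L, hL, hLψ⟩ := hlevel₀
    exact ⟨L, hL, fun σ hσ => Subtype.ext (hLψ σ hσ)⟩
  have hsurj : Function.Surjective ψ := ψ₀.rangeRestrict_surjective
  set r : ℕ := Fintype.card ψ₀.range with hr
  have hr0 : 0 < r := Fintype.card_pos
  have hrR : (0 : ℝ) < r := by exact_mod_cast hr0
  set δ : ℝ := 1 / (4 * r) with hδ
  have hδ0 : 0 < δ := by positivity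
  -- Frobenius elements
  have hfrobex : ∀ p : DsfPrime N, ∃ A : ValuationSubring (AlgebraicClosure ℚ),
      A.LiesOverPrime p ∧ ∃ σ : Γℚ, A.IsFrobeniusAt σ p :=
    fun p => Fermat.Agent.S54.exists_liesOverPrime_and_isFrobeniusAt p p.2.1
  choose Ap hAp hσex using hfrobex
  choose σp hσp using hσex
  let z : DsfPrime N → ψ₀.range := fun p => ψ (σp p)
  let cw : ψ₀.range → ℝ := fun ζ => ‖1 + (((ζ : ψ₀.range) : ℂˣ) : ℂ)‖ ^ 2
  have hcw0 : ∀ ζ, 0 ≤ cw ζ := fun ζ => by positivity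
  have hcwinv : ∀ ζ : ψ₀.range, cw ζ⁻¹ = cw ζ := by
    intro ζ
    show ‖1 + (((ζ⁻¹ : ψ₀.range) : ℂˣ) : ℂ)‖ ^ 2 = ‖1 + (((ζ : ψ₀.range) : ℂˣ) : ℂ)‖ ^ 2
    rw [Subgroup.coe_inv, Units.val_inv_eq_inv_val,
      dski_norm_one_add_inv _ (dski_norm_eq_one ψ₀.range ζ)]
  have hz : ∀ p : DsfPrime N, ‖a p‖ ^ 2 = cw (z p) := by
    intro p
    have h1 := (hρ.frob p p.2.1 (by rw [mul_one]; exact p.2.2) (Ap p) (hAp p) (σp p) (hσp p)).1
    rw [← h1, htrace (σp p)]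
    rfl
  -- the level sets of `cw`
  let Y : Finset ℝ := Finset.univ.image cw
  have hY0 : ∀ t : Y, 0 ≤ (t : ℝ) := by
    intro t
    obtain ⟨ζ, -, hζ⟩ := Finset.mem_image.mp t.2
    rw [← hζ]
    exact hcw0 ζ
  let z' : DsfPrime N → Y :=
    fun p => ⟨cw (z p), Finset.mem_image_of_mem _ (Finset.mem_univ _)⟩
  let St : Y → Set ψ₀.range := fun t => {ζ | cw ζ = t}
  -- Chebotarev for the level sets
  have hcheb := fun t : Y => hH ψ₀.range ψ hlevel hsurj N hN (St t)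
    (by
      intro g h hg
      rw [mul_comm, inv_mul_cancel_left]
      exact hg)
    (by
      intro g hg
      show cw g⁻¹ = t
      rw [hcwinv]
      exact hg) δ hδ0
  choose Ct hCt using hcheb
  obtain ⟨C, hC⟩ := hR
  set K : ℝ := ∑ t : Y, (t : ℝ) * Ct t with hK
  set Sc : ℝ := ∑ ζ : ψ₀.range, cw ζ with hSc
  have hsumcw : 2 * (r : ℝ) ≤ Sc := dski_sum_ge ψ₀.range
  have hn : ∀ t : Y, (Nat.card (St t) : ℝ) =
      ((Finset.univ.filter (fun ζ : ψ₀.range => cw ζ = t)).card : ℝ) := by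
    intro t
    congr 1
    rw [Nat.card_eq_fintype_card]
    exact Fintype.card_subtype _
  have hfib : ∑ t : Y, (t : ℝ) * (Nat.card (St t) : ℝ) = Sc := by
    rw [hSc, ← Finset.sum_fiberwise_of_maps_to
      (s := (Finset.univ : Finset ψ₀.range)) (t := Y) (g := cw) (f := cw)
      (fun ζ _ => Finset.mem_image_of_mem _ (Finset.mem_univ _)),
      ← Finset.sum_coe_sort Y]
    refine Finset.sum_congr rfl fun t _ => ?_
    rw [hn t, Finset.sum_congr rfl (fun ζ hζ => (Finset.mem_filter.mp hζ).2), Finset.sum_const,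
      nsmul_eq_mul, mul_comm]
  have hYle : ∑ t : Y, (t : ℝ) ≤ Sc := by
    rw [← hfib]
    refine Finset.sum_le_sum fun t _ => ?_
    have h1 : (1 : ℝ) ≤ (Nat.card (St t) : ℝ) := by
      rw [hn t]
      obtain ⟨ζ, -, hζ⟩ := Finset.mem_image.mp t.2
      have : 0 < (Finset.univ.filter (fun ζ : ψ₀.range => cw ζ = t)).card :=
        Finset.card_pos.mpr ⟨ζ, Finset.mem_filter.mpr ⟨Finset.mem_univ _, hζ⟩⟩
      exact_mod_cast this
    nlinarith [hY0 t]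
  -- the inequality for every `s`
  have hmain : ∀ s : ℝ, 1 < s → s ≤ 2 → Real.log (1 / (s - 1)) ≤ 2 * (K + C) := by
    intro s hs hs2
    set Lg : ℝ := Real.log (1 / (s - 1)) with hLg
    have hL0 : 0 ≤ Lg := by
      apply Real.log_nonneg
      rw [le_div_iff₀ (by linarith)]
      linarith
    have hsum := dski_summable N hs
    have h1 := (hC s hs hs2).2
    have h2 : ∑' p : DsfPrime N, ‖(fun p : DsfPrime N => a p) p‖ ^ 2 * ((p : ℕ) : ℝ) ^ (-s) =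
        ∑ t : Y, (t : ℝ) *
          ∑' x : (z' ⁻¹' {t} : Set (DsfPrime N)), (((x : DsfPrime N) : ℕ) : ℝ) ^ (-s) := by
      rw [← dski_tsum_fibre z' (fun t : Y => (t : ℝ))
        (fun p : DsfPrime N => ((p : ℕ) : ℝ) ^ (-s)) hsum]
      refine tsum_congr fun p => ?_
      show ‖a p‖ ^ 2 * _ = _
      rw [hz p]
    have h3 : ∀ t : Y, ((Nat.card (St t) : ℝ) / (r : ℝ) - δ) * Lg - Ct t ≤
        ∑' x : (z' ⁻¹' {t} : Set (DsfPrime N)), (((x : DsfPrime N) : ℕ) : ℝ) ^ (-s) := by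
      intro t
      have h4 := hCt t s hs hs2 (z' ⁻¹' {t})
        (fun p _ h => Subtype.ext (h (Ap p) (hAp p) (σp p) (hσp p)))
        (hsum.subtype _)
      rw [Nat.card_eq_fintype_card (α := ψ₀.range)] at h4
      exact h4
    have h5 : ∑ t : Y, (t : ℝ) * (((Nat.card (St t) : ℝ) / (r : ℝ) - δ) * Lg - Ct t) ≤
        ∑ t : Y, (t : ℝ) *
          ∑' x : (z' ⁻¹' {t} : Set (DsfPrime N)), (((x : DsfPrime N) : ℕ) : ℝ) ^ (-s) :=
      Finset.sum_le_sum fun t _ => mul_le_mul_of_nonneg_left (h3 t) (hY0 t)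
    have h6 : ∑ t : Y, (t : ℝ) * (((Nat.card (St t) : ℝ) / (r : ℝ) - δ) * Lg - Ct t) =
        (∑ t : Y, (t : ℝ) * (Nat.card (St t) : ℝ)) / (r : ℝ) * Lg
          - δ * (∑ t : Y, (t : ℝ)) * Lg - K := by
      rw [hK, Finset.sum_div, Finset.sum_mul, Finset.mul_sum, Finset.sum_mul,
        ← Finset.sum_sub_distrib, ← Finset.sum_sub_distrib]
      refine Finset.sum_congr rfl fun t _ => ?_
      ring
    have h7 : (1 / (r : ℝ) - δ) = 3 / (4 * r) := by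
      rw [hδ]
      field_simp
      ring
    have h8 : 3 / 2 * Lg ≤ Sc / (r : ℝ) * Lg - δ * (∑ t : Y, (t : ℝ)) * Lg := by
      have h9 : 0 ≤ 3 / (4 * (r : ℝ)) * Lg := by positivity
      have h10 : δ * (∑ t : Y, (t : ℝ)) * Lg ≤ δ * Sc * Lg :=
        mul_le_mul_of_nonneg_right (mul_le_mul_of_nonneg_left hYle hδ0.le) hL0
      have h11 : Sc / (r : ℝ) * Lg - δ * Sc * Lg = Sc * (3 / (4 * (r : ℝ)) * Lg) := by
        rw [← h7]
        ring
      have h12 : 3 / 2 * Lg = 2 * (r : ℝ) * (3 / (4 * (r : ℝ)) * Lg) := by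
        field_simp
        ring
      have h13 : 2 * (r : ℝ) * (3 / (4 * (r : ℝ)) * Lg) ≤ Sc * (3 / (4 * (r : ℝ)) * Lg) :=
        mul_le_mul_of_nonneg_right hsumcw h9
      linarith
    rw [h2] at h1
    rw [hfib] at h6
    linarith
  -- choose `s` close to `1`
  set x : ℝ := |2 * (K + C)| + 1 with hx
  have hx0 : 0 < x := by positivity
  have hs1 : 1 < 1 + Real.exp (-x) := by linarith [Real.exp_pos (-x)]
  have hs2 : 1 + Real.exp (-x) ≤ 2 := by
    have : Real.exp (-x) ≤ 1 := Real.exp_le_one_iff.mpr (by linarith)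
    linarith
  have h := hmain _ hs1 hs2
  rw [add_sub_cancel_left, one_div, ← Real.exp_neg, neg_neg, Real.log_exp] at h
  have := le_abs_self (2 * (K + C))
  linarith

/-! ### K6 -/

/-- K6 (irreducibility, DS (8.8)): Rankin's bound (constant `1`) forbids `a p = χ₁ + χ₂`. -/
theorem dsk_irreducible {N : ℕ} (hN : N ≠ 0) {a e : ℕ → ℂ} (hR : DsRankin N a) (hH : DsChebotarev)
    {ρ : Γℚ →* GL (Fin 2) ℂ} (hρ : DskCplxRep N a e 1 ρ) :
    (Deformation.matrixRepresentation ρ).IsIrreducible := by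
  classical
  have hbt : (⊥ : Subrepresentation (Deformation.matrixRepresentation ρ)) ≠ ⊤ := by
    intro h
    have h1 := congrArg Subrepresentation.toSubmodule h
    change (⊥ : Submodule ℂ (Fin 2 → ℂ)) = ⊤ at h1
    exact bot_ne_top h1
  have : Nontrivial (Subrepresentation (Deformation.matrixRepresentation ρ)) := ⟨⟨⊥, ⊤, hbt⟩⟩
  refine ⟨fun W => ?_⟩
  by_contra hW
  rw [not_or] at hW
  obtain ⟨hWbot, hWtop⟩ := hW
  have h1 : W.toSubmodule ≠ ⊥ := fun h => hWbot (Subrepresentation.toSubmodule_injective h)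
  have h2 : W.toSubmodule ≠ ⊤ := fun h => hWtop (Subrepresentation.toSubmodule_injective h)
  have hfr : Module.finrank ℂ W.toSubmodule = 1 := by
    have hlt : Module.finrank ℂ W.toSubmodule < Module.finrank ℂ (Fin 2 → ℂ) :=
      Submodule.finrank_lt h2
    have hpos : 1 ≤ Module.finrank ℂ W.toSubmodule := Submodule.one_le_finrank_iff.mpr h1
    rw [Module.finrank_fin_fun] at hlt
    omega
  obtain ⟨v, hvW, hv0⟩ := Submodule.exists_mem_ne_zero_of_ne_bot h1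
  have hv0' : (⟨v, hvW⟩ : W.toSubmodule) ≠ 0 := fun h => hv0 (congrArg Subtype.val h)
  have hall := (finrank_eq_one_iff_of_nonzero' (⟨v, hvW⟩ : W.toSubmodule) hv0').mp hfr
  refine dski_no_stable_line hN hR hH hρ v hv0 fun σ => ?_
  have hmem : (Deformation.matrixRepresentation ρ σ) v ∈ W.toSubmodule :=
    W.apply_mem_toSubmodule σ hvW
  obtain ⟨c, hc⟩ := hall ⟨_, hmem⟩
  refine ⟨c, ?_⟩
  have h3 : c • v = (Deformation.matrixRepresentation ρ σ) v := congrArg Subtype.val hc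
  rw [Deformation.matrixRepresentation_apply] at h3
  exact h3.symm

end Fermat.Agent.DS
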