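/-
Program DS (S48, Deligne–Serre), package K, row K7: the end game (`ds_endgame`,
`ds_S48_of_blackboxes`): K4 twice, K5 (gluing), K6 (irreducibility).
-/
import Fermat.Agent.DS.K.Glue
import Fermat.Agent.DS.K.Irreducible
import Fermat.Agent.DS.K.CplxRep

set_option autoImplicit false

open Polynomial Filter Topology

namespace Fermat.Agent.DS

local notation "Γℚ" => (AlgebraicClosure ℚ ≃ₐ[ℚ] AlgebraicClosure ℚ)

/-- Rankin's bound for the family itself (the identity embedding of the coefficient field). -/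
theorem dske_rankin {N : ℕ} {a : ℕ → ℂ} {K : IntermediateField ℚ ℂ} (hK : DsCoeffField N a K) :
    DsRankin N a :=
  hK.rankin (K.val : ↥K →+* ℂ)

/-- **K main**: the conclusion of the frozen S48 for abstract sequences. -/
theorem ds_endgame {N : ℕ} (hN : N ≠ 0) {a e : ℕ → ℂ} {K : IntermediateField ℚ ℂ}
    (hK : DsCoeffField N a K) (heK : ∀ p : DsfPrime N, e p ∈ K) (m : ℕ) (hm : 0 < m)
    (he : ∀ p : ℕ, p.Prime → ¬ p ∣ N → e p ^ m = 1)
    (hC : DsResidualExists N a e K) (hH : DsChebotarev) (hI : DsProp72) (hJ : DsLift) :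
    ∃ ρ : Γℚ →* GL (Fin 2) ℂ, GaloisFactorsThroughFiniteLevel ρ ∧
      (Deformation.matrixRepresentation ρ).IsIrreducible ∧
      ∀ p : ℕ, p.Prime → ¬ p ∣ N →
        ∀ A : ValuationSubring (AlgebraicClosure ℚ), A.LiesOverPrime p →
          (∀ σ ∈ A.inertiaSubgroupIn ℚ, ρ σ = 1) ∧
          ∀ σ : Γℚ, A.IsFrobeniusAt σ p →
            ((ρ σ : GL (Fin 2) ℂ) : Matrix (Fin 2) (Fin 2) ℂ).trace = a p ∧
            ((ρ σ : GL (Fin 2) ℂ) : Matrix (Fin 2) (Fin 2) ℂ).det = e p := by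
  obtain ⟨ℓ₀, -, h0, ρ₀, hρ₀⟩ := dsk_cplxRep_exists hN hK heK m hm he hC hH hI hJ 0
  obtain ⟨ℓ₁, h01, h1, ρ₁, hρ₁⟩ := dsk_cplxRep_exists hN hK heK m hm he hC hH hI hJ ℓ₀
  have hglue : DskCplxRep N a e 1 ρ₀ := dsk_glue (ne_of_lt h01) h0 h1 hρ₀ hρ₁
  refine ⟨ρ₀, hglue.finiteLevel, dsk_irreducible hN (dske_rankin hK) hH hglue,
    fun p hp hpN A hA => ⟨fun σ hσ => hglue.unram p hp (by rwa [mul_one]) A hA σ hσ,
      fun σ hσ => hglue.frob p hp (by rwa [mul_one]) A hA σ hσ⟩⟩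

/-- the values of a Dirichlet character at the primes not dividing the level are roots of unity
of order dividing `φ(N)`. -/
theorem dske_char_pow (N : ℕ) [NeZero N] (ε : DirichletCharacter ℂ N) (p : ℕ) (hp : p.Prime)
    (hpN : ¬ p ∣ N) : ε (p : ZMod N) ^ N.totient = 1 := by
  have hcop : Nat.Coprime p N := (Nat.Prime.coprime_iff_not_dvd hp).2 hpN
  have h1 : ((ZMod.unitOfCoprime p hcop : (ZMod N)ˣ) : ZMod N) = (p : ZMod N) :=
    ZMod.coe_unitOfCoprime p hcop
  rw [← map_pow, ← h1, ← Units.val_pow_eq_pow_val, ZMod.pow_totient, Units.val_one, map_one]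

/-- **S48 from the black boxes** (the frozen statement, with the outputs of the other packages as
hypotheses): `hB` = (A)+(B)+(F) [coefficient field, integrality, Rankin for all conjugates] and
(C)+(D)+(E) [mod `ℓ` representations]; `hH` = (H); `hI` = (I); `hJ` = (J). -/
theorem ds_S48_of_blackboxes (N : ℕ) [NeZero N] (ε : DirichletCharacter ℂ N)
    (f : CuspForm (CongruenceSubgroup.Gamma1 N) 1)
    (hB : ∃ K : IntermediateField ℚ ℂ,
      DsCoeffField N (fun n => ModularFormClass.qCoeff f n) K ∧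
      (∀ p : DsfPrime N, ε ((p : ℕ) : ZMod N) ∈ K) ∧
      DsResidualExists N (fun n => ModularFormClass.qCoeff f n) (fun n => ε (n : ZMod N)) K)
    (hH : DsChebotarev) (hI : DsProp72) (hJ : DsLift) :
    ∃ ρ : Γℚ →* GL (Fin 2) ℂ, GaloisFactorsThroughFiniteLevel ρ ∧
      (Deformation.matrixRepresentation ρ).IsIrreducible ∧
      ∀ p : ℕ, p.Prime → ¬ p ∣ N →
        ∀ A : ValuationSubring (AlgebraicClosure ℚ), A.LiesOverPrime p →
          (∀ σ ∈ A.inertiaSubgroupIn ℚ, ρ σ = 1) ∧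
          ∀ σ : Γℚ, A.IsFrobeniusAt σ p →
            ((ρ σ : GL (Fin 2) ℂ) : Matrix (Fin 2) (Fin 2) ℂ).trace = ModularFormClass.qCoeff f p ∧
            ((ρ σ : GL (Fin 2) ℂ) : Matrix (Fin 2) (Fin 2) ℂ).det = ε (p : ZMod N) := by
  obtain ⟨K, hK, hεK, hC⟩ := hB
  exact ds_endgame (NeZero.ne N) (a := fun n => ModularFormClass.qCoeff f n) (e := fun n => ε (n : ZMod N))
    hK hεK N.totient (Nat.totient_pos.2 (Nat.pos_of_ne_zero (NeZero.ne N)))
    (fun p hp hpN => dske_char_pow N ε p hp hpN) hC hH hI hJ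

end Fermat.Agent.DS
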